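import Fermat.Agent.LTG.Ext.Lift
import Fermat.Agent.RM.Residual
import Fermat.Agent.GR.RT.Inertia
import Fermat.Agent.DS.Main.Assembly

/-!
# The Artin representation is a twist of the lift

It has the trace of the lift on the elements fixing the level and mapping into the quaternion
subgroup; so it is a twist of the lift by a character of the level.
-/

set_option autoImplicit false

noncomputable section

open Matrix FLT.ExplicitLift CongruenceSubgroup ModularFormClass
open scoped MatrixGroups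

namespace Fermat.LTG.Ext

open Fermat.DS Fermat.GR.RT
open Fermat.RM (inQ8_iff_mem smallGroup mem_smallGroup)

local notation "ℚbar" => AlgebraicClosure ℚ
local notation "Γℚ" => (AlgebraicClosure ℚ ≃ₐ[ℚ] AlgebraicClosure ℚ)
local notation "GL23" => GL (Fin 2) (ZMod 3)
local notation "MC2" => Matrix (Fin 2) (Fin 2) ℂ

/-- Four orthogonal matrices for the trace form span. -/
theorem eq_sum_of_gram {S : Fin 4 → MC2} {D : Fin 4 → ℂ} (hD : ∀ i, D i ≠ 0)
    (hS : ∀ i j, (S i * S j).trace = if i = j then D i else 0) (M : MC2) :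
    M = ∑ i, ((M * S i).trace / D i) • S i := by
  have hli : LinearIndependent ℂ S := Fintype.linearIndependent_iff.mpr fun c hc i => by
    have h := congrArg (fun x : MC2 => (x * S i).trace) hc
    simp only [Finset.sum_mul, trace_sum, smul_mul, trace_smul, hS, smul_eq_mul, mul_ite, mul_zero,
      Finset.sum_ite_eq', Finset.mem_univ, if_true, zero_mul, trace_zero] at h
    exact (mul_eq_zero.mp h).resolve_right (hD i)
  have htop := hli.span_eq_top_of_card_eq_finrank (by simp [Module.finrank_matrix])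
  obtain ⟨c, hc⟩ := (Submodule.mem_span_range_iff_exists_fun ℂ).mp
    (htop.symm ▸ Submodule.mem_top : M ∈ Submodule.span ℂ (Set.range S))
  refine hc.symm.trans (Finset.sum_congr rfl fun i _ => ?_)
  have h : (M * S i).trace = c i * D i := by
    rw [← hc]
    simp only [Finset.sum_mul, trace_sum, smul_mul, trace_smul, hS, smul_eq_mul, mul_ite, mul_zero,
      Finset.sum_ite_eq', Finset.mem_univ, if_true]
  rw [h, mul_div_cancel_right₀ _ (hD i)]

variable {G : Type} [Group G] (H : Subgroup G) (h : Fin 4 → G) {S R : G →* GL (Fin 2) ℂ}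
  {D : Fin 4 → ℂ}

/-- The linear map carrying one basis to the other. -/
def basisMap (S R : G →* GL (Fin 2) ℂ) (D : Fin 4 → ℂ) : MC2 →ₗ[ℂ] MC2 :=
  ∑ j, (LinearMap.smulRight ((Matrix.traceLinearMap (Fin 2) ℂ ℂ).comp
    (LinearMap.mulRight ℂ ((D j)⁻¹ • (S (h j) : MC2)))) (R (h j) : MC2))

/-- The formula for the map between the bases. -/
theorem basisMap_apply (M : MC2) :
    basisMap h S R D M = ∑ j, ((M * (S (h j) : MC2)).trace / D j) • (R (h j) : MC2) := by
  simp [basisMap, LinearMap.sum_apply, div_eq_inv_mul]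

/-- **Equal traces on a normal subgroup which spans give a twist.** -/
theorem exists_twistHom [H.Normal] (hh : ∀ i, h i ∈ H) (hD : ∀ i, D i ≠ 0)
    (hgram : ∀ i j, ((S (h i) : MC2) * (S (h j) : MC2)).trace = if i = j then D i else 0)
    (htr : ∀ x ∈ H, (R x : MC2).trace = (S x : MC2).trace) :
    ∃ χ : G →* ℂˣ, (∀ g, (R g : MC2).trace = (χ g : ℂ) * (S g : MC2).trace ∧
      (R g : MC2).det = (χ g : ℂ) ^ 2 * (S g : MC2).det) ∧ ∀ x ∈ H, χ x = 1 := by
  have hgramR : ∀ i j, ((R (h i) : MC2) * (R (h j) : MC2)).trace = if i = j then D i else 0 :=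
    fun i j => by
      rw [← hgram, ← Units.val_mul, ← Units.val_mul, ← map_mul, ← map_mul,
        htr _ (mul_mem (hh i) (hh j))]
  have hS := eq_sum_of_gram hD hgram
  have hR := eq_sum_of_gram hD hgramR
  set φ := basisMap h S R D with hφ
  have hφH : ∀ x ∈ H, φ (S x : MC2) = (R x : MC2) := fun x hx => by
    rw [hφ, basisMap_apply, hR (R x : MC2)]
    refine Finset.sum_congr rfl fun j _ => ?_
    rw [← Units.val_mul, ← Units.val_mul, ← map_mul, ← map_mul, htr _ (mul_mem hx (hh j))]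
  have hone : φ 1 = 1 := by
    have := hφH 1 (one_mem H)
    rwa [map_one, map_one, Units.val_one] at this
  -- the map between the bases is an algebra automorphism
  have hmul : ∀ A B, φ (A * B) = φ A * φ B := fun A B => by
    conv_lhs => rw [hS A, hS B]
    rw [Finset.sum_mul_sum, hφ, basisMap_apply h A, basisMap_apply h B, Finset.sum_mul_sum, ← hφ,
      map_sum]
    refine Finset.sum_congr rfl fun i _ => ?_
    rw [map_sum]
    refine Finset.sum_congr rfl fun j _ => ?_
    rw [smul_mul_smul_comm, smul_mul_smul_comm, map_smul, ← Units.val_mul, ← map_mul,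
      hφH _ (mul_mem (hh i) (hh j)), map_mul, Units.val_mul]
  have htrφ : ∀ A, (φ A).trace = A.trace := fun A => by
    conv_rhs => rw [hS A]
    rw [hφ, basisMap_apply, trace_sum, trace_sum]
    refine Finset.sum_congr rfl fun j _ => ?_
    rw [trace_smul, trace_smul, htr _ (hh j)]
  have hdetφ : ∀ A, (φ A).det = A.det := fun A => by
    have h1 : ∀ B : MC2, 2 * B.det = B.trace ^ 2 - (B * B).trace := fun B => by
      simp only [det_fin_two, trace_fin_two, mul_apply, Fin.sum_univ_two]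
      ring
    refine mul_left_cancel₀ (two_ne_zero : (2 : ℂ) ≠ 0) ?_
    rw [h1, h1, ← hmul, htrφ, htrφ]
  let P : G →* GL (Fin 2) ℂ :=
    (Units.map (MonoidHom.mk ⟨fun A => φ A, hone⟩ hmul)).comp S
  have hP : ∀ g, (P g : MC2) = φ (S g : MC2) := fun g => rfl
  have hPH : ∀ x ∈ H, P x = R x := fun x hx => Units.ext (hφH x hx)
  -- by Schur the two representations differ by scalars
  have hsc : ∀ g, ∃ c : ℂ, (R g : MC2) = c • (P g : MC2) := by
    intro g
    set C : MC2 := (↑((P g)⁻¹ * R g) : MC2) with hC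
    have hcomm : ∀ M : MC2, C * M = M * C := fun M => by
      rw [hR M, Finset.mul_sum, Finset.sum_mul]
      refine Finset.sum_congr rfl fun j _ => ?_
      rw [Matrix.mul_smul, smul_mul, hC, ← Units.val_mul, ← Units.val_mul]
      congr 2
      have hc' : g * h j * g⁻¹ ∈ H := ‹H.Normal›.conj_mem _ (hh j) g
      have e1 := hPH _ hc'
      simp only [map_mul, map_inv] at e1
      rw [hPH _ (hh j)] at e1
      calc (P g)⁻¹ * R g * R (h j)
          = (P g)⁻¹ * (R g * R (h j) * (R g)⁻¹) * R g := by group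
        _ = R (h j) * ((P g)⁻¹ * R g) := by rw [← e1]; group
    have h01 := congrFun (congrFun (hcomm !![0, 1; 0, 0]) 0) 1
    have h00 := congrFun (congrFun (hcomm !![0, 1; 0, 0]) 0) 0
    have h10 := congrFun (congrFun (hcomm !![0, 0; 1, 0]) 0) 0
    simp [mul_apply, Fin.sum_univ_two] at h01 h00 h10
    have hCs : C = C 0 0 • 1 := by
      ext i j
      fin_cases i <;> fin_cases j <;> simp [← h00, h10, h01]
    refine ⟨C 0 0, ?_⟩
    rw [← mul_one (P g : MC2), ← Matrix.mul_smul, ← hCs, hC, ← Units.val_mul, mul_inv_cancel_left]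
  choose c hc using hsc
  have hP0 : ∀ g, (P g : MC2) ≠ 0 := fun g => (P g).ne_zero
  have hmulc : ∀ g g', c (g * g') = c g * c g' := fun g g' => by
    refine smul_left_injective ℂ (hP0 (g * g')) ?_
    change c (g * g') • (P (g * g') : MC2) = (c g * c g') • (P (g * g') : MC2)
    rw [← hc (g * g'), map_mul, map_mul, Units.val_mul, Units.val_mul, hc g, hc g',
      smul_mul_smul_comm]
  have hH1 : ∀ x ∈ H, c x = 1 := fun x hx => by
    refine smul_left_injective ℂ (hP0 x) ?_
    change c x • (P x : MC2) = (1 : ℂ) • (P x : MC2)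
    rw [← hc, one_smul, hPH x hx]
  refine ⟨(MonoidHom.mk ⟨c, hH1 1 (one_mem H)⟩ hmulc).toHomUnits, fun g => ⟨?_, ?_⟩,
    fun x hx => Units.ext (hH1 x hx)⟩
  · rw [hc g, trace_smul, hP, htrφ]
    rfl
  · rw [hc g, det_smul, Fintype.card_fin, hP, hdetφ]
    rfl

variable (ρ : Γℚ →* GL23) (hρ : GenRho ρ) (Ψ : GL23 →* GL (Fin 2) (ℤ√(-2)))
  (hΨ : ∀ g, GeneralLinearGroup.map red (Ψ g) = g)
include hρ

/-- The representation factors through a finite level. -/
theorem finiteLevel_rho : GaloisFactorsThroughFiniteLevel ρ := by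
  have hopen : IsOpen (ρ.ker : Set Γℚ) := (isOpen_discrete {1}).preimage hρ.continuous
  obtain ⟨L, hL, hsub⟩ :=
    (krullTopology_mem_nhds_one_iff ℚ ℚbar (ρ.ker : Set Γℚ)).mp (hopen.mem_nhds (one_mem ρ.ker))
  exact ⟨L, hL, fun σ hσ => hsub ((IntermediateField.mem_fixingSubgroup_iff L σ).mpr hσ)⟩

omit hρ in
/-- The cyclotomic character factors through a finite level. -/
theorem finiteLevel_cycK (K : ℕ) [NeZero K] : GaloisFactorsThroughFiniteLevel (cycK K) :=
  cycK_cont K

/-- The determinant is trivial on the elements fixing a level divisible by three. -/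
theorem det_eq_one_of_cycK {K : ℕ} [NeZero K] (h3 : 3 ∣ K) {σ : Γℚ} (h : cycK K σ = 1) :
    (ρ σ : Matrix (Fin 2) (Fin 2) (ZMod 3)).det = 1 := by
  obtain ⟨z, hz⟩ := exists_primitive_level 3
  have h1 := modularCyclotomicCharacter.spec ℚbar (IsAlgClosed.card_rootsOfUnity_eq ℚbar 3)
    (σ : ℚbar ≃+* ℚbar) (t := hz.toRootsOfUnity.1) hz.toRootsOfUnity.2
  have h2 := cycK_eq_of_apply (K := 3) hz (σ := σ) h1
  rw [← unitsMap_cycK h3, h, map_one, Units.val_one, ZMod.natCast_zmod_val] at h2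
  have h4 := congrArg (fun u : (ZMod 3)ˣ => (u : ZMod 3)) (hρ.det σ)
  simp only [GeneralLinearGroup.val_det_apply, WeierstrassCurve.modThreeCyclotomicChar_apply] at h4
  rw [h4, h2]

omit hρ in
/-- The cyclotomic character is surjective. -/
theorem cycK_surjective (K : ℕ) [NeZero K] : Function.Surjective (cycK K) := fun u => by
  obtain ⟨p, hpK, hp, hpu⟩ := Nat.forall_exists_prime_gt_and_eq_mod u.isUnit K
  have hcop : p.Coprime K := hp.coprime_iff_not_dvd.mpr fun hd =>
    (Nat.le_of_dvd (NeZero.pos K) hd).not_gt hpK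
  obtain ⟨A, hA⟩ := Fermat.CFT.exists_place hp
  obtain ⟨σ, hσ⟩ := Fermat.CFT.exists_isFrobeniusAt hp hA
  exact ⟨σ, by rw [cycK_frobenius hp hcop hA hσ]; exact Units.ext hpu⟩

/-- Elements of the small group mapping to the basis of the quaternion subgroup. -/
theorem exists_gens (K : ℕ) [NeZero K] :
    ∃ h : Fin 4 → Γℚ, (∀ i, h i ∈ smallGroup ρ K) ∧ h 0 = 1 ∧
      ∀ i, (ρ (h i) : Matrix (Fin 2) (Fin 2) (ZMod 3)) = q4 i := by
  have : Fact (Nat.Prime 3) := ⟨Nat.prime_three⟩
  obtain ⟨u, hu, v, hv, hU, hV⟩ := Fermat.RM.exists_generators (N := K) hρ.surjective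
  refine ⟨![1, u, v, u * v], Fin.forall_fin_succ.mpr ⟨one_mem _, Fin.forall_fin_succ.mpr
    ⟨hu, Fin.forall_fin_succ.mpr ⟨hv, Fin.forall_fin_succ.mpr ⟨mul_mem hu hv, finZeroElim⟩⟩⟩⟩,
    rfl, fun i => ?_⟩
  fin_cases i <;> simp [q4, hU, hV]

include hΨ

/-- **The twist.** A character `ψ` modulo `3 N` times the coefficient at `p` gives the trace of the
lift at Frobenius, its square times `ε` the sign of the determinant. -/
theorem exists_twist_data {N : ℕ} [NeZero N] {ε : DirichletCharacter ℂ N}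
    {g : CuspForm (Gamma1 N) 1} (hg : IsWeightOneEigen ε g)
    (hgood : ∀ p : ℕ, p.Prime → (p : ZMod (3 * N)) = 1 →
      ∀ A : ValuationSubring ℚbar, A.LiesOverPrime p →
        ∀ σ : Γℚ, A.IsFrobeniusAt σ p → LT.InQ8 (ρ σ) →
          qCoeff g p = (LT.liftTr (ρ σ) : ℂ)) :
    ∃ ψ : DirichletCharacter ℂ (3 * N), ∀ p : ℕ, p.Prime → ¬ p ∣ 3 * N →
      ∀ A : ValuationSubring ℚbar, A.LiesOverPrime p → ∀ σ : Γℚ, A.IsFrobeniusAt σ p →
        ψ (p : ZMod (3 * N)) * qCoeff g p = (liftC Ψ (ρ σ) : MC2).trace ∧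
        ψ (p : ZMod (3 * N)) ^ 2 * ε (p : ZMod N) =
          if (ρ σ : Matrix (Fin 2) (Fin 2) (ZMod 3)).det = 1 then 1 else -1 := by
  classical
  have : Fact (Nat.Prime 3) := ⟨Nat.prime_three⟩
  have : NeZero (3 * N) := ⟨mul_ne_zero (by norm_num) (NeZero.ne N)⟩
  set K := 3 * N with hK
  obtain ⟨R, hRfin, -, hR⟩ := exists_artin hg
  set H := smallGroup ρ K with hH
  have : H.Normal := by
    refine ⟨fun x hx y => ?_⟩
    rw [hH, mem_smallGroup] at hx ⊢
    exact ⟨by simp [hx.1], by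
      rw [map_mul, map_mul, map_inv]
      exact Fermat.RM.mem_q8Sub.mp
        ((inferInstance : Fermat.RM.q8Sub.Normal).conj_mem _ (Fermat.RM.mem_q8Sub.mpr hx.2) _)⟩
  -- the trace on `H`
  let f : Γℚ →* GL (Fin 2) ℂ × GL23 × (ZMod K)ˣ := R.prod (ρ.prod (cycK K))
  have hfl : GaloisFactorsThroughFiniteLevel f := finiteLevel_pair R _ hRfin
    (finiteLevel_pair ρ _ (finiteLevel_rho ρ hρ) (finiteLevel_cycK K))
  have htr : ∀ x ∈ H, (R x : MC2).trace = (liftC Ψ (ρ x) : MC2).trace := fun x hx => by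
    obtain ⟨hx1, hx2⟩ := mem_smallGroup.mp hx
    obtain ⟨p, hp, hpT, A, hA, φ, hφ, w, hw⟩ := exists_frobenius f hfl x K.primeFactors
    have hpK : ¬ p ∣ K := fun hd => hpT (Nat.mem_primeFactors.mpr ⟨hp, hd, NeZero.ne K⟩)
    have e1 : R φ = w.1 * R x * w.1⁻¹ := congrArg Prod.fst hw
    have e2 : ρ φ = w.2.1 * ρ x * w.2.1⁻¹ := congrArg (fun z => z.2.1) hw
    have e3 : cycK K φ = w.2.2 * cycK K x * w.2.2⁻¹ := congrArg (fun z => z.2.2) hw
    rw [hx1, mul_one, mul_inv_cancel] at e3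
    have hQ : LT.InQ8 (ρ φ) := by
      rw [e2]
      exact Fermat.RM.mem_q8Sub.mp
        ((inferInstance : Fermat.RM.q8Sub.Normal).conj_mem _ (Fermat.RM.mem_q8Sub.mpr hx2) _)
    have hp1 : (p : ZMod K) = 1 := by
      rw [← ZMod.coe_unitOfCoprime p (hp.coprime_iff_not_dvd.mpr hpK),
        ← cycK_frobenius hp _ hA hφ, e3, Units.val_one]
    have h1 := ((hR p hp (fun hd => hpK (hd.mul_left 3)) A hA).2 φ hφ).1
    rw [hgood p hp hp1 A hA φ hφ hQ, ← trace_liftC_q8 hΨ hQ, e1, e2, map_mul, map_mul, map_inv,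
      (trace_det_conj _ _).1, (trace_det_conj _ _).1] at h1
    exact h1
  obtain ⟨h, hh, -, hhq⟩ := exists_gens ρ hρ K
  have hgram : ∀ i j, (((liftC Ψ).comp ρ (h i) : MC2) * ((liftC Ψ).comp ρ (h j) : MC2)).trace =
      if i = j then (dQ i : ℂ) else 0 := fun i j => by
    have hQ : LT.InQ8 (ρ (h i * h j)) := (inQ8_iff_mem _).mpr (by
      rw [map_mul, Units.val_mul, hhq, hhq]; exact (tr8_gram i j).1)
    rw [← Units.val_mul, ← map_mul, MonoidHom.comp_apply, trace_liftC_q8 hΨ hQ, liftTr_eq, map_mul,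
      Units.val_mul, hhq, hhq, (tr8_gram i j).2]
    split_ifs <;> simp
  obtain ⟨χ, hχ, hχH⟩ := exists_twistHom H h (S := (liftC Ψ).comp ρ) (R := R) hh
    (fun i => Int.cast_ne_zero.mpr (dQ_ne_zero i)) hgram htr
  -- the character factors through the level
  obtain ⟨a, b, hab⟩ := exists_commutator_uni
  obtain ⟨a', rfl⟩ := hρ.surjective a
  obtain ⟨b', rfl⟩ := hρ.surjective b
  set t := a' * b' * a'⁻¹ * b'⁻¹ with ht
  have htK : cycK K t = 1 := Fermat.RM.map_commutator_eq_one _ _ _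
  have htχ : χ t = 1 := Fermat.RM.map_commutator_eq_one _ _ _
  have hker : ∀ x, cycK K x = 1 → χ x = 1 := fun x hx => by
    obtain ⟨k, hk⟩ := exists_pow_mem_q8 _ (det_eq_one_of_cycK ρ hρ (dvd_mul_right 3 N) hx)
    have hmem : x * t ^ k ∈ H :=
      mem_smallGroup.mpr ⟨by rw [map_mul, map_pow, hx, htK, one_pow, one_mul],
      (inQ8_iff_mem _).mpr (by
        rw [map_mul, map_pow, Units.val_mul, Units.val_pow_eq_pow_val, ht, map_mul,
          map_mul, map_mul, map_inv, map_inv, hab]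
        exact hk)⟩
    have h1 := hχH _ hmem
    rwa [map_mul, map_pow, htχ, one_pow, mul_one] at h1
  let l := MonoidHom.liftOfRightInverse (cycK K) (Function.surjInv (cycK_surjective K))
    (Function.rightInverse_surjInv _) ⟨χ, fun x hx => hker x hx⟩
  have hl : ∀ x, l (cycK K x) = χ x := fun x =>
    MonoidHom.liftOfRightInverse_comp_apply _ _ _ _ x
  refine ⟨MulChar.ofUnitHom l⁻¹, fun p hp hpK A hA σ hσ => ?_⟩
  have hcop : p.Coprime K := hp.coprime_iff_not_dvd.mpr hpK
  have hval : MulChar.ofUnitHom l⁻¹ (p : ZMod K) = (χ σ : ℂ)⁻¹ := by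
    rw [← ZMod.coe_unitOfCoprime p hcop, MulChar.ofUnitHom_coe, MonoidHom.inv_apply,
      ← cycK_frobenius hp hcop hA hσ, hl, Units.val_inv_eq_inv_val]
  obtain ⟨h1, h2⟩ := (hR p hp (fun hd => hpK (hd.mul_left 3)) A hA).2 σ hσ
  obtain ⟨h3, h4⟩ := hχ σ
  rw [h1] at h3
  rw [h2] at h4
  have hne : (χ σ : ℂ) ≠ 0 := (χ σ).ne_zero
  refine ⟨by rw [hval, h3, inv_mul_cancel_left₀ hne, MonoidHom.comp_apply], ?_⟩
  rw [hval, h4, MonoidHom.comp_apply, det_liftC hΨ, ← mul_assoc, ← mul_pow, inv_mul_cancel₀ hne,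
    one_pow, one_mul]

end Fermat.LTG.Ext

end
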