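import Fermat.Agent.LTG.Ext.Hecke
import Fermat.Agent.LTG.Targets
import Fermat.Prelude.Thm_ModularForm_sturm_bound_of_isArithmetic

/-!
# A normalised eigenform from a form with prescribed eigenvalues

The forms with the prescribed eigenvalues at the primes of the hypothesis are stable under `Γ₀(N)`
and, inside a character, under all the Hecke operators; a common eigenvector has first coefficient
not zero.
-/

set_option autoImplicit false
set_option linter.unusedSectionVars false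

noncomputable section

open Function UpperHalfPlane CongruenceSubgroup ModularFormClass Filter
open scoped MatrixGroups ModularForm Manifold

namespace Fermat.LTG.Ext

open Fermat.MC.Lvl Fermat.DS

local notation "Γℚ" => (AlgebraicClosure ℚ ≃ₐ[ℚ] AlgebraicClosure ℚ)

/-- Commuting endomorphisms of a finite dimensional space have a common eigenvector. -/
theorem exists_common_eigen {V : Type*} [AddCommGroup V] [Module ℂ V] [FiniteDimensional ℂ V]
    {ι : Type*} (T : ι → Module.End ℂ V) :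
    ∀ W : Submodule ℂ V, W ≠ ⊥ → (∀ i, ∀ v ∈ W, T i v ∈ W) →
      (∀ i j, ∀ v ∈ W, T i (T j v) = T j (T i v)) →
      ∃ v ∈ W, v ≠ 0 ∧ ∀ i, ∃ c : ℂ, T i v = c • v := by
  intro W
  induction h : Module.finrank ℂ W using Nat.strong_induction_on generalizing W with
  | _ d ih =>
    intro hW hinv hcomm
    subst h
    by_cases hs : ∀ i, ∃ c : ℂ, ∀ v ∈ W, T i v = c • v
    · obtain ⟨v, hv, hv0⟩ := W.ne_bot_iff.mp hW
      exact ⟨v, hv, hv0, fun i => ⟨_, (hs i).choose_spec v hv⟩⟩
    push Not at hs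
    obtain ⟨i, hi⟩ := hs
    have : Nontrivial W := Submodule.nontrivial_iff_ne_bot.mpr hW
    obtain ⟨μ, hμ⟩ := Module.End.exists_eigenvalue ((T i).restrict (hinv i))
    obtain ⟨⟨w, hw⟩, hwμ, hw0⟩ := hμ.exists_hasEigenvector
    rw [Module.End.mem_eigenspace_iff] at hwμ
    set W' := W ⊓ LinearMap.ker (T i - μ • (1 : Module.End ℂ V))
    have hmem : ∀ v, v ∈ W' ↔ v ∈ W ∧ T i v = μ • v := fun v => by
      simp [W', sub_eq_zero]
    have hne : W' ≠ ⊥ := fun h0 => hw0 (Subtype.ext (by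
      have : w ∈ W' := (hmem w).mpr ⟨hw, congrArg Subtype.val hwμ⟩
      rw [h0, Submodule.mem_bot] at this
      exact this))
    obtain ⟨u, hu, hu'⟩ := hi μ
    have hlt : W' < W := lt_of_le_of_ne inf_le_left fun e => hu' ((hmem u).mp (e.symm ▸ hu)).2
    obtain ⟨v, hv, hv0, hve⟩ := ih _ (Submodule.finrank_lt_finrank_of_lt hlt) W' rfl hne
      (fun j v hv => by
        obtain ⟨hvW, hvi⟩ := (hmem v).mp hv
        exact (hmem _).mpr ⟨hinv j v hvW, by rw [hcomm i j v hvW, hvi, map_smul]⟩)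
      fun j k v hv => hcomm j k v ((hmem v).mp hv).1
    exact ⟨v, ((hmem v).mp hv).1, hv0, hve⟩

variable {N : ℕ} [NeZero N]

/-- The expansion commutes with scalars. -/
theorem qExpansion_smul_form (c : ℂ) (f : CuspForm (Gamma1 N) 1) :
    qExpansion 1 ⇑(c • f) = c • qExpansion 1 ⇑f := by
  rw [show (⇑(c • f) : ℍ → ℂ) = c • ⇑f from rfl]
  exact qExpansion_smul (f := ⇑f) (bddPer_Gamma1 f).analyticAt c

/-- The expansion is additive. -/
theorem qExpansion_add_form (f g : CuspForm (Gamma1 N) 1) :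
    qExpansion 1 ⇑(f + g) = qExpansion 1 ⇑f + qExpansion 1 ⇑g := by
  rw [show (⇑(f + g) : ℍ → ℂ) = ⇑f + ⇑g from rfl]
  exact qExpansion_add (bddPer_Gamma1 f).analyticAt (bddPer_Gamma1 g).analyticAt

/-- A coefficient as a linear map. -/
def coeffF (N : ℕ) [NeZero N] (n : ℕ) : CuspForm (Gamma1 N) 1 →ₗ[ℂ] ℂ where
  toFun f := qCoeff f n
  map_add' f g := by
    change qCoeff _ n = qCoeff f n + qCoeff g n
    rw [qCoeff, qExpansion_add_form, map_add]; rfl
  map_smul' c f := by
    change qCoeff _ n = c • qCoeff f n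
    rw [qCoeff, qExpansion_smul_form, PowerSeries.coeff_smul]; rfl

/-- The coefficient as a linear map is the coefficient. -/
theorem coeffF_apply (n : ℕ) (f : CuspForm (Gamma1 N) 1) : coeffF N n f = qCoeff f n := rfl

/-- A form is determined by its coefficients. -/
theorem form_ext {f g : CuspForm (Gamma1 N) 1} (h : ∀ n, qCoeff f n = qCoeff g n) : f = g :=
  DFunLike.coe_injective (bddPer_ext (bddPer_Gamma1 f) (bddPer_Gamma1 g) (PowerSeries.ext h))

/-- Cusp forms have vanishing zeroth coefficient. -/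
theorem qCoeff_zero_form (f : CuspForm (Gamma1 N) 1) : qCoeff f 0 = 0 := by
  have hper : (1 : ℝ) ∈ (Gamma1 N : Subgroup (GL (Fin 2) ℝ)).strictPeriods := by
    rw [Subgroup.strictPeriods_eq_zmultiples_one_of_T_mem
      ((Gamma1_mem N ModularGroup.T).mpr (by simp [ModularGroup.coe_T]))]
    exact AddSubgroup.mem_zmultiples (1 : ℝ)
  exact CuspFormClass.qExpansion_coeff_zero (h := 1) f one_pos hper

/-- Weight one cusp forms for `Γ₁(N)` form a finite-dimensional space. -/
theorem finiteDimensional_cuspForm_one (N : ℕ) [NeZero N] :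
    FiniteDimensional ℂ (CuspForm (Gamma1 N) 1) := by
  set G : Subgroup (GL (Fin 2) ℝ) := (Gamma1 N : Subgroup (GL (Fin 2) ℝ))
  have hper : (1 : ℝ) ∈ G.strictPeriods := by
    rw [Subgroup.strictPeriods_eq_zmultiples_one_of_T_mem
      ((Gamma1_mem N ModularGroup.T).mpr (by simp [ModularGroup.coe_T]))]
    exact AddSubgroup.mem_zmultiples (1 : ℝ)
  set B : ℕ := ((1 : ℤ) * G.relIndex 𝒮ℒ).toNat / 12
  refine FiniteDimensional.of_injective (LinearMap.pi fun n : Fin (B + 1) => coeffF N n)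
    fun f g hfg => sub_eq_zero.mp ?_
  set d := f - g
  have hd : ∀ n : ℕ, n ≤ B → qCoeff d n = 0 := fun n hn => by
    have h1 := congrFun hfg ⟨n, Nat.lt_succ_of_le hn⟩
    simp only [LinearMap.pi_apply, coeffF_apply] at h1
    rw [← coeffF_apply, show d = f - g from rfl, map_sub, coeffF_apply, coeffF_apply, h1, sub_self]
  let F : ModularForm G 1 :=
    { toFun := ⇑d
      slash_action_eq' := SlashInvariantFormClass.slash_action_eq d
      holo' := CuspFormClass.holo d
      bdd_at_cusps' := fun hc => ModularFormClass.bdd_at_cusps d hc }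
  have hF : F = 0 := ModularForm.sturm_bound_of_isArithmetic hper
    (lt_of_lt_of_le (by exact_mod_cast Nat.lt_succ_self B)
      (PowerSeries.le_order _ ((B + 1 : ℕ) : ℕ∞) fun i hi =>
        hd i (Nat.lt_succ_iff.mp (by exact_mod_cast hi))))
  refine DFunLike.coe_injective ?_
  change ⇑F = _
  rw [hF]
  rfl

/-- Slashing by an element of `Γ₀(N)` as an endomorphism. -/
def slashOp (N : ℕ) [NeZero N] (g : Gamma0 N) : Module.End ℂ (CuspForm (Gamma1 N) 1) where
  toFun f := slashForm f g.2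
  map_add' f f' := DFunLike.coe_injective (by
    change ⇑(f + f') ∣[(1 : ℤ)] (g : SL(2, ℤ)) =
      ⇑f ∣[(1 : ℤ)] (g : SL(2, ℤ)) + ⇑f' ∣[(1 : ℤ)] (g : SL(2, ℤ))
    rw [FunLike.coe_add, SlashAction.add_slash])
  map_smul' c f := DFunLike.coe_injective (by
    change ⇑(c • f) ∣[(1 : ℤ)] (g : SL(2, ℤ)) = c • (⇑f ∣[(1 : ℤ)] (g : SL(2, ℤ)))
    rw [FunLike.coe_smul, ModularForm.SL_smul_slash])

/-- The endomorphism of an element of `Γ₀(N)` is the slash. -/
theorem slashOp_apply (g : Gamma0 N) (f : CuspForm (Gamma1 N) 1) :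
    slashOp N g f = slashForm f g.2 := rfl

/-- The lower right entry is multiplicative modulo `N`. -/
theorem entry_mul (g g' : Gamma0 N) :
    ((((g * g' : Gamma0 N) : SL(2, ℤ)) 1 1 : ℤ) : ZMod N) =
      (((g : SL(2, ℤ)) 1 1 : ℤ) : ZMod N) * (((g' : SL(2, ℤ)) 1 1 : ℤ) : ZMod N) :=
  map_mul (Gamma0Map N) g g'

/-- The endomorphisms of `Γ₀(N)` commute. -/
theorem slashOp_comm (g g' : Gamma0 N) (f : CuspForm (Gamma1 N) 1) :
    slashOp N g (slashOp N g' f) = slashOp N g' (slashOp N g f) := DFunLike.coe_injective (by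
  simp only [slashOp_apply, coe_slashForm, ← SlashAction.slash_mul]
  exact slash_eq_of_same_entry f (mul_mem g'.2 g.2) (mul_mem g.2 g'.2)
    ((entry_mul g' g).trans ((mul_comm _ _).trans (entry_mul g g').symm)))

/-- A common eigenvector of `Γ₀(N)` has a character. -/
theorem exists_neb {f : CuspForm (Gamma1 N) 1} (hf : f ≠ 0)
    (heig : ∀ g : Gamma0 N, ∃ c : ℂ, slashOp N g f = c • f) :
    ∃ ε : DirichletCharacter ℂ N, f ∈ neb N ε := by
  choose c hc using heig
  have hcoe : ∀ g : Gamma0 N, ⇑f ∣[(1 : ℤ)] (g : SL(2, ℤ)) = c g • ⇑f := fun g => by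
    rw [← coe_slashForm f g.2, ← slashOp_apply, hc, FunLike.coe_smul]
  have huniq : ∀ a b : ℂ, a • f = b • f → a = b := fun a b e => smul_left_injective ℂ hf e
  have hdep : ∀ g g' : Gamma0 N, gamma0Units N g = gamma0Units N g' → c g = c g' := fun g g' e =>
    huniq _ _ (DFunLike.coe_injective (by
      rw [FunLike.coe_smul, FunLike.coe_smul, ← hcoe, ← hcoe]
      exact slash_eq_of_same_entry f g.2 g'.2
        (congrArg Units.val e)))
  choose lift hlift using gamma0Units_surjective (N := N)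
  have hmul : ∀ g g' : Gamma0 N, c (g * g') = c g * c g' := fun g g' =>
    huniq _ _ (DFunLike.coe_injective (by
      rw [FunLike.coe_smul, FunLike.coe_smul, ← hcoe, Subgroup.coe_mul,
        SlashAction.slash_mul, hcoe, ModularForm.SL_smul_slash, hcoe, smul_smul]))
  have h1 : c 1 = 1 := huniq _ _ (DFunLike.coe_injective (by
    rw [FunLike.coe_smul, ← hcoe, one_smul, Subgroup.coe_one, SlashAction.slash_one]))
  let χ : (ZMod N)ˣ →* ℂ :=
    { toFun := fun u => c (lift u)
      map_one' := (hdep _ 1 (by rw [hlift, map_one])).trans h1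
      map_mul' := fun u v => (hdep _ (lift u * lift v) (by rw [hlift, map_mul, hlift, hlift])).trans
        (hmul _ _) }
  refine ⟨MulChar.ofUnitHom χ.toHomUnits, fun g hg => ?_⟩
  rw [hcoe ⟨g, hg⟩, show ((g 1 1 : ℤ) : ZMod N) = ((gamma0Units N ⟨g, hg⟩ : (ZMod N)ˣ) : ZMod N)
    from rfl, MulChar.ofUnitHom_coe]
  exact congrArg (· • ⇑f) (hdep ⟨g, hg⟩ _ (hlift _).symm)

/-- `a ↦ a(x n) + e a(n / x)`. -/
def coeffOp (e : ℕ → ℂ) (x : ℕ) (a : ℕ → ℂ) (n : ℕ) : ℂ :=
  a (x * n) + e x * (if x ∣ n then a (n / x) else 0)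

/-- The coefficient operators at different primes commute. -/
theorem coeffOp_comm (e : ℕ → ℂ) {x z : ℕ} (hx : x.Prime) (hz : z.Prime) (hne : x ≠ z)
    (a : ℕ → ℂ) (n : ℕ) : coeffOp e x (coeffOp e z a) n = coeffOp e z (coeffOp e x a) n := by
  have hc : x.Coprime z := (Nat.coprime_primes hx hz).mpr hne
  have hd : ∀ {u v : ℕ}, u.Coprime v → v.Prime → (v ∣ u * n ↔ v ∣ n) := fun huv hv =>
    ⟨fun h => (huv.symm.dvd_of_dvd_mul_left h), fun h => dvd_mul_of_dvd_right h _⟩
  simp only [coeffOp]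
  rw [Nat.mul_left_comm z x n]
  by_cases h1 : x ∣ n <;> by_cases h2 : z ∣ n <;>
    simp only [h1, h2, hd hc hz, hd hc.symm hx, if_true, if_false, mul_zero, add_zero]
  · obtain ⟨m, rfl⟩ : x * z ∣ n := hc.mul_dvd_of_dvd_of_dvd h1 h2
    have e1 : x * z * m / x = z * m := by rw [mul_assoc, Nat.mul_div_cancel_left _ hx.pos]
    have e2 : x * z * m / z = x * m := by
      rw [mul_comm x z, mul_assoc, Nat.mul_div_cancel_left _ hz.pos]
    have e3 : x * (x * z * m) / z = x * (x * m) := by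
      rw [show x * (x * z * m) = z * (x * (x * m)) by ring, Nat.mul_div_cancel_left _ hz.pos]
    have e4 : z * (x * z * m) / x = z * (z * m) := by
      rw [show z * (x * z * m) = x * (z * (z * m)) by ring, Nat.mul_div_cancel_left _ hx.pos]
    rw [e1, e2, e3, e4, if_pos (dvd_mul_right z m), if_pos (dvd_mul_right x m),
      Nat.mul_div_cancel_left _ hz.pos, Nat.mul_div_cancel_left _ hx.pos]
    ring
  · obtain ⟨m, rfl⟩ := h1
    rw [Nat.mul_div_cancel_left _ hx.pos,
      if_neg (show ¬ z ∣ m from fun h => h2 (dvd_mul_of_dvd_right h _)),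
      show z * (x * m) / x = z * m by
        rw [Nat.mul_left_comm, Nat.mul_div_cancel_left _ hx.pos]]
    ring
  · obtain ⟨m, rfl⟩ := h2
    rw [Nat.mul_div_cancel_left _ hz.pos,
      if_neg (show ¬ x ∣ m from fun h => h1 (dvd_mul_of_dvd_right h _)),
      show x * (z * m) / z = x * m by
        rw [Nat.mul_left_comm, Nat.mul_div_cancel_left _ hz.pos]]
    ring

/-- The forms with prescribed eigenvalues. -/
def eigSpace (ρ : Γℚ →* GL (Fin 2) (ZMod 3)) (N : ℕ) [NeZero N] :
    Submodule ℂ (CuspForm (Gamma1 N) 1) where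
  carrier := {f | ∀ (p : ℕ) [Fact p.Prime], (p : ZMod (3 * N)) = 1 →
    ∀ A : ValuationSubring (AlgebraicClosure ℚ), A.LiesOverPrime p →
      ∀ σ : Γℚ, A.IsFrobeniusAt σ p → LT.InQ8 (ρ σ) →
        heckeOp N p f = (LT.liftTr (ρ σ) : ℂ) • f}
  zero_mem' p _ _ A _ σ _ _ := by rw [map_zero, smul_zero]
  add_mem' {a b} ha hb p _ h A hA σ hσ hQ := by
    rw [map_add, smul_add, ha p h A hA σ hσ hQ, hb p h A hA σ hσ hQ]
  smul_mem' c a ha p _ h A hA σ hσ hQ := by
    rw [map_smul, ha p h A hA σ hσ hQ, smul_comm]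

/-- One modulo `3 N` is one modulo `N`. -/
theorem natCast_one_of_dvd {p : ℕ} (h : (p : ZMod (3 * N)) = 1) : (p : ZMod N) = 1 := by
  have h1 := congrArg (ZMod.castHom (dvd_mul_left N 3) (ZMod N)) h
  rwa [map_natCast, map_one] at h1

/-- **The eigenform.** A weight one form for `ρ` gives a weight one eigenform whose coefficient at
`p ≡ 1 (mod 3 N)` with quaternion Frobenius is the trace of the lift. -/
theorem exists_eigen {ρ : Γℚ →* GL (Fin 2) (ZMod 3)} (hf : WeightOneG ρ) :
    ∃ (N : ℕ) (_ : NeZero N) (ε : DirichletCharacter ℂ N) (g : CuspForm (Gamma1 N) 1),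
      IsWeightOneEigen ε g ∧
      ∀ p : ℕ, p.Prime → (p : ZMod (3 * N)) = 1 →
        ∀ A : ValuationSubring (AlgebraicClosure ℚ), A.LiesOverPrime p →
          ∀ σ : Γℚ, A.IsFrobeniusAt σ p → LT.InQ8 (ρ σ) →
            qCoeff g p = (LT.liftTr (ρ σ) : ℂ) := by
  classical
  obtain ⟨N, hN, f, hf0, hrel⟩ := hf
  have := hN
  have := finiteDimensional_cuspForm_one N
  have hfV : f ∈ eigSpace ρ N := fun p hp h A hA σ hσ hQ => form_ext fun n => by
    rw [qCoeff_heckeOp_one p f (natCast_one_of_dvd h), ← coeffF_apply n (_ • f), map_smul,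
      coeffF_apply, smul_eq_mul]
    exact hrel p hp.out h A hA σ hσ hQ n
  have hVinv : ∀ (g : Gamma0 N), ∀ v ∈ eigSpace ρ N, slashOp N g v ∈ eigSpace ρ N := by
    intro g v hv p hp h A hA σ hσ hQ
    rw [slashOp_apply, heckeOp_slashForm, hv p h A hA σ hσ hQ, ← slashOp_apply, ← slashOp_apply,
      map_smul]
  obtain ⟨f₁, hf₁V, hf₁0, hf₁⟩ := exists_common_eigen (slashOp N) (eigSpace ρ N)
    ((Submodule.ne_bot_iff _).mpr ⟨f, hfV, hf0⟩) hVinv fun i j v _ => slashOp_comm i j v
  obtain ⟨ε, hε⟩ := exists_neb hf₁0 hf₁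
  -- inside a character the Hecke operators commute
  let T : Nat.Primes → Module.End ℂ (CuspForm (Gamma1 N) 1) := fun p =>
    haveI : Fact (p : ℕ).Prime := ⟨p.2⟩
    heckeOp N p
  have hcoef : ∀ (p : Nat.Primes), ∀ v ∈ neb N ε,
      qCoeff (T p v) = coeffOp (fun x => ε (x : ZMod N)) p (qCoeff v) := fun p v hv => by
    have : Fact (p : ℕ).Prime := ⟨p.2⟩
    funext n
    exact qCoeff_heckeOp (p : ℕ) hv n
  have hTneb : ∀ (p : Nat.Primes), ∀ v ∈ neb N ε, T p v ∈ neb N ε := fun p v hv => by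
    have : Fact (p : ℕ).Prime := ⟨p.2⟩
    exact heckeOp_mem_neb (p : ℕ) hv
  have hTcomm : ∀ (i j : Nat.Primes), ∀ v ∈ neb N ε, T i (T j v) = T j (T i v) := by
    intro i j v hv
    rcases eq_or_ne i j with rfl | hij
    · rfl
    refine form_ext fun n => ?_
    rw [hcoef i _ (hTneb j v hv), hcoef j v hv, hcoef j _ (hTneb i v hv), hcoef i v hv]
    exact coeffOp_comm _ i.2 j.2 (fun e => hij (Subtype.ext e)) _ n
  set W := eigSpace ρ N ⊓ neb N ε
  have hWinv : ∀ (p : Nat.Primes), ∀ v ∈ W, T p v ∈ W := fun p v hv => by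
    refine ⟨fun x hx h A hA σ hσ hQ => ?_, hTneb p v hv.2⟩
    exact (hTcomm ⟨x, hx.out⟩ p v hv.2).trans
      ((congrArg (T p) (hv.1 x h A hA σ hσ hQ)).trans (map_smul _ _ _))
  obtain ⟨g, hgW, hg0, hg⟩ := exists_common_eigen T W
    ((Submodule.ne_bot_iff _).mpr ⟨f₁, ⟨hf₁V, hε⟩, hf₁0⟩) hWinv
    fun i j v hv => hTcomm i j v hv.2
  choose μ hμ using hg
  have hrec : ∀ (p : Nat.Primes) (n : ℕ), qCoeff g ((p : ℕ) * n) +
      ε ((p : ℕ) : ZMod N) * (if (p : ℕ) ∣ n then qCoeff g (n / p) else 0) = μ p * qCoeff g n := by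
    intro p n
    have h1 := congrFun (hcoef p g hgW.2) n
    rw [hμ p, ← coeffF_apply, map_smul, coeffF_apply, smul_eq_mul] at h1
    exact h1.symm
  -- the recursion determines the form by its first coefficient, which is therefore not zero
  have hg1 : qCoeff g 1 ≠ 0 := fun h1 => hg0 (form_ext fun n => by
    rw [← coeffF_apply n (0 : CuspForm (Gamma1 N) 1), map_zero]
    induction n using Nat.strong_induction_on with
    | _ n ih =>
      rcases Nat.lt_or_ge n 2 with hn | hn
      · interval_cases n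
        · exact qCoeff_zero_form g
        · exact h1
      · have hp : (Nat.minFac n).Prime := Nat.minFac_prime (by omega)
        obtain ⟨m, hm⟩ := Nat.minFac_dvd n
        have hm0 : 0 < m := Nat.pos_of_ne_zero (by rintro rfl; omega)
        have hmn : m < n := by
          rw [hm]; exact lt_mul_of_one_lt_left hm0 hp.one_lt
        have h2 := hrec ⟨_, hp⟩ m
        rw [ih m hmn, mul_zero] at h2
        rw [hm]
        by_cases hd : Nat.minFac n ∣ m
        · rw [if_pos hd, ih _ ((Nat.div_le_self _ _).trans_lt hmn), mul_zero, add_zero] at h2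
          exact h2
        · rw [if_neg hd, mul_zero, add_zero] at h2
          exact h2)
  set a1 := qCoeff g 1
  have hμe : ∀ p : Nat.Primes, μ p = qCoeff g p / a1 := fun p => by
    have h2 := hrec p 1
    rw [mul_one, if_neg (fun h => p.2.ne_one (Nat.dvd_one.mp h)), mul_zero, add_zero] at h2
    rw [h2, mul_div_cancel_right₀ _ hg1]
  have hsm : ∀ n, qCoeff (a1⁻¹ • g : CuspForm (Gamma1 N) 1) n = qCoeff g n / a1 := fun n => by
    rw [← coeffF_apply n (a1⁻¹ • g), map_smul, coeffF_apply, smul_eq_mul, div_eq_inv_mul]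
  refine ⟨N, hN, ε, a1⁻¹ • g, ⟨(hsm 1).trans (div_self hg1), fun p hp _ n => ?_⟩,
    fun p hp h A hA σ hσ hQ => ?_⟩
  · rw [hsm, hsm, hsm, hsm]
    have h2 : qCoeff g (p * n) + ε (p : ZMod N) * (if p ∣ n then qCoeff g (n / p) else 0) =
        qCoeff g p / a1 * qCoeff g n := (hrec ⟨p, hp⟩ n).trans
      (congrArg (· * qCoeff g n) (hμe ⟨p, hp⟩))
    by_cases hd : p ∣ n
    · simp only [if_pos hd] at h2 ⊢
      field_simp at h2 ⊢
      linear_combination h2
    · simp only [if_neg hd] at h2 ⊢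
      field_simp at h2 ⊢
      linear_combination h2
  · have : Fact p.Prime := ⟨hp⟩
    have h2 : μ ⟨p, hp⟩ • g = (LT.liftTr (ρ σ) : ℂ) • g :=
      (hμ ⟨p, hp⟩).symm.trans (hgW.1 p h A hA σ hσ hQ)
    exact (hsm p).trans ((hμe ⟨p, hp⟩).symm.trans (smul_left_injective ℂ hg0 h2))

end Fermat.LTG.Ext

end
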