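import Fermat.Agent.DS.Wt1.Nebentypus
import Fermat.Agent.HM.Forms
import Fermat.Agent.JAC.XH.HeckeS2

/-!
# Hecke operators on cusp forms of weight one for `Γ₁(N)`

`heckeOp N ℓ` is the sum over the representatives of determinant `ℓ`; it commutes with `Γ₀(N)`
and on forms with character `ε` it is `a(n) ↦ a(ℓ n) + ε(ℓ) a(n / ℓ)`.
-/

set_option autoImplicit false

noncomputable section

open Function UpperHalfPlane CongruenceSubgroup ModularFormClass
open scoped MatrixGroups ModularForm Manifold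

namespace Fermat.LTG.Ext

open Fermat.MC.Lvl Fermat.DS
open Fermat.MC (BddPer)
open Fermat.HM (gq toReal)

variable {N : ℕ} [NeZero N]

/-- For positive determinant the slash does not conjugate. -/
theorem sigma_toReal {g : GL (Fin 2) ℚ} (hg : 0 < (g : Matrix (Fin 2) (Fin 2) ℚ).det) :
    UpperHalfPlane.σ (toReal g) = ContinuousAlgEquiv.refl ℝ ℂ := by
  rw [UpperHalfPlane.σ, if_pos]
  rw [Matrix.GeneralLinearGroup.val_det_apply, toReal, Matrix.GeneralLinearGroup.map]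
  exact (RingHom.map_det (Rat.castHom ℝ) (g : Matrix (Fin 2) (Fin 2) ℚ)).symm ▸
    (Rat.cast_pos.mpr hg)

/-- The sum over the representatives. -/
def repSum (ℓ : ℕ) [Fact ℓ.Prime] (N : ℕ) [NeZero N] (f : ℍ → ℂ) : ℍ → ℂ :=
  ∑ i, f ∣[(1 : ℤ)] toReal ((HM.hecke N (⊥ : Subgroup (ZMod N)ˣ) ℓ).toReps.B i)

/-- The Hecke operator at `ℓ` on cusp forms of weight one on `Γ₁(N)`. -/
def heckeOp (N : ℕ) [NeZero N] (ℓ : ℕ) [Fact ℓ.Prime] :
    Module.End ℂ (CuspForm (Gamma1 N) 1) where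
  toFun f :=
    { toFun := repSum ℓ N f
      slash_action_eq' := by
        rintro _ ⟨γ, hγ, rfl⟩
        exact heckeSum_invariant f hγ
      holo' := by
        change MDiff (repSum ℓ N f)
        exact MDifferentiable.sum fun i _ => MDifferentiable.slash (CuspFormClass.holo f) _ _
      zero_at_cusps' := fun {c} hc => by
        refine Finset.sum_induction _ (fun g : ℍ → ℂ => c.IsZeroAt g 1)
          (fun _ _ => OnePoint.IsZeroAt.add) ?_ fun i _ =>
            OnePoint.IsZeroAt.smul_iff.mp (CuspFormClass.zero_at_cusps f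
              (HM.isCusp_toReal_smul (Γ' := Gamma1 N) hc _))
        intro g _
        simp only [SlashAction.zero_slash, UpperHalfPlane.IsZeroAtImInfty, Filter.ZeroAtFilter]
        exact tendsto_const_nhds }
  map_add' f g := DFunLike.coe_injective (by
    change repSum ℓ N ⇑(f + g) = repSum ℓ N f + repSum ℓ N g
    simp only [repSum, FunLike.coe_add, SlashAction.add_slash, Finset.sum_add_distrib])
  map_smul' a f := DFunLike.coe_injective (by
    change repSum ℓ N ⇑(a • f) = a • repSum ℓ N f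
    rw [repSum, repSum, Finset.smul_sum]
    refine Finset.sum_congr rfl fun i _ => ?_
    rw [FunLike.coe_smul, ModularForm.smul_slash,
      sigma_toReal ((HM.hecke N (⊥ : Subgroup (ZMod N)ˣ) ℓ).toReps.det_B i)]
    rfl)

/-- The Hecke operator as a function. -/
theorem coe_heckeOp (ℓ : ℕ) [Fact ℓ.Prime] (f : CuspForm (Gamma1 N) 1) :
    ⇑(heckeOp N ℓ f) = repSum ℓ N f := rfl

omit [NeZero N] in
/-- Modulo `N` the representatives are `(1, *; 0, *)`. -/
theorem heckeMat_entries {ℓ : ℕ} [hℓ : Fact ℓ.Prime] (i : HM.HeckeIdx ℓ N) :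
    ((HM.heckeMat ℓ N i.1 0 0 : ℤ) : ZMod N) = 1 ∧
      ((HM.heckeMat ℓ N i.1 1 0 : ℤ) : ZMod N) = 0 := by
  obtain ⟨_ | j, hi⟩ := i
  · have h := congrArg (fun x : ℤ => (x : ZMod N)) (HM.bezout (ℓ := ℓ) (N := N) (hi rfl))
    simp only [Int.cast_add, Int.cast_mul, Int.cast_natCast, ZMod.natCast_self, zero_mul, add_zero,
      Int.cast_one] at h
    exact ⟨by simpa [HM.heckeMat, mul_comm] using h, by simp [HM.heckeMat]⟩
  · simp [HM.heckeMat]

/-- The operator commutes with `Γ₀(N)`. -/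
theorem heckeOp_slashForm (ℓ : ℕ) [hℓ : Fact ℓ.Prime] (f : CuspForm (Gamma1 N) 1) {g : SL(2, ℤ)}
    (hg : g ∈ Gamma0 N) : heckeOp N ℓ (slashForm f hg) = slashForm (heckeOp N ℓ f) hg := by
  refine DFunLike.coe_injective ?_
  rw [coe_heckeOp, coe_slashForm, coe_slashForm, coe_heckeOp, repSum, repSum, ModularForm.SL_slash,
    SlashAction.sum_slash]
  set P := (HM.hecke N (⊤ : Subgroup (ZMod N)ˣ) ℓ).toReps
  have hg' : g ∈ GammaH N (⊤ : Subgroup (ZMod N)ˣ) := MC.Lvl.GammaH_top (N := N) ▸ hg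
  symm
  refine Fintype.sum_bijective _ (P.perm_bijective ⟨g, hg'⟩) _ _ fun i => ?_
  have hd : (P.elt ⟨g, hg'⟩ i : SL(2, ℤ)) ∈ Gamma0 N :=
    MC.Lvl.GammaH_top (N := N) ▸ (P.elt ⟨g, hg'⟩ i).2
  set d : SL(2, ℤ) := (P.elt ⟨g, hg'⟩ i : SL(2, ℤ))
  set k := P.perm ⟨g, hg'⟩ i
  have hmat : HM.stdGL ℓ N i * gq g = gq d * HM.stdGL ℓ N k := P.mul_gq ⟨g, hg'⟩ i
  have hz : HM.heckeMat ℓ N i.1 * (g : Matrix (Fin 2) (Fin 2) ℤ) =
      (d : Matrix (Fin 2) (Fin 2) ℤ) * HM.heckeMat ℓ N k.1 := by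
    refine Matrix.map_injective Int.cast_injective (α := ℤ) (β := ℚ) ?_
    have h := congrArg Units.val hmat
    rw [Units.val_mul, Units.val_mul, HM.coe_stdGL, HM.coe_stdGL, HM.coe_gq, HM.coe_gq,
      ← Matrix.map_mul_intCast, ← Matrix.map_mul_intCast] at h
    exact h
  obtain ⟨a1, c1⟩ := heckeMat_entries (N := N) i
  obtain ⟨a2, c2⟩ := heckeMat_entries (N := N) k
  have h00 := congrArg (fun M : Matrix (Fin 2) (Fin 2) ℤ => ((M 0 0 : ℤ) : ZMod N)) hz
  simp only [Matrix.mul_apply, Fin.sum_univ_two, Int.cast_add, Int.cast_mul, a1, a2, c2,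
    Gamma0_mem.mp hg, mul_one, one_mul, mul_zero, add_zero] at h00
  have h11 : ((g 1 1 : ℤ) : ZMod N) = ((d 1 1 : ℤ) : ZMod N) := by
    have e1 := Gamma0_entries hg
    have e2 := Gamma0_entries hd
    linear_combination (-((g 1 1 : ℤ) : ZMod N)) * e2 + ((d 1 1 : ℤ) : ZMod N) * e1 -
      ((g 1 1 : ℤ) : ZMod N) * ((d 1 1 : ℤ) : ZMod N) * h00
  change (⇑f ∣[(1 : ℤ)] toReal (HM.stdGL ℓ N i)) ∣[(1 : ℤ)] (g : GL (Fin 2) ℝ) =
    (⇑f ∣[(1 : ℤ)] g) ∣[(1 : ℤ)] toReal (HM.stdGL ℓ N k)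
  rw [← SlashAction.slash_mul, ← HM.toReal_gq g, ← map_mul, hmat, map_mul, SlashAction.slash_mul,
    HM.toReal_gq, ← ModularForm.SL_slash, slash_eq_of_same_entry f hd hg h11.symm]

/-- Forms with character `ε`. -/
def neb (N : ℕ) [NeZero N] (ε : DirichletCharacter ℂ N) :
    Submodule ℂ (CuspForm (Gamma1 N) 1) where
  carrier := {f | ∀ g ∈ Gamma0 N, ⇑f ∣[(1 : ℤ)] g = ε ((g 1 1 : ℤ) : ZMod N) • ⇑f}
  zero_mem' g _ := by
    change ⇑(0 : CuspForm (Gamma1 N) 1) ∣[(1 : ℤ)] g = _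
    rw [FunLike.coe_zero, SlashAction.zero_slash, smul_zero]
  add_mem' {a b} ha hb g hg := by
    rw [FunLike.coe_add, SlashAction.add_slash, ha g hg, hb g hg, smul_add]
  smul_mem' c a ha g hg := by
    rw [FunLike.coe_smul, ModularForm.SL_smul_slash, ha g hg, smul_comm]

/-- The Hecke operator preserves forms with a character. -/
theorem heckeOp_mem_neb (ℓ : ℕ) [Fact ℓ.Prime] {ε : DirichletCharacter ℂ N}
    {f : CuspForm (Gamma1 N) 1} (hf : f ∈ neb N ε) : heckeOp N ℓ f ∈ neb N ε := fun g hg => by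
  have e : slashForm f hg = ε ((g 1 1 : ℤ) : ZMod N) • f := DFunLike.coe_injective (by
    rw [coe_slashForm, hf g hg, FunLike.coe_smul])
  rw [← coe_slashForm (heckeOp N ℓ f) hg, ← heckeOp_slashForm, e, map_smul,
    FunLike.coe_smul]

/-- The expansion of a constant. -/
theorem qExpansion_const (a : ℂ) : qExpansion 1 (fun _ : ℍ => a) = PowerSeries.C a := by
  have h : qExpansion 1 (a • (1 : ℍ → ℂ)) = a • qExpansion 1 (1 : ℍ → ℂ) :=
    qExpansion_smul (f := (1 : ℍ → ℂ)) (BddPer.const 1).analyticAt a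
  rw [qExpansion_one, PowerSeries.smul_eq_C_mul, mul_one] at h
  rw [← h]
  congr 1
  funext z
  simp

/-- The repSum for `ℓ ∣ N` is `U ℓ`. -/
theorem repSum_of_dvd {ℓ : ℕ} [hℓ : Fact ℓ.Prime] (h : ℓ ∣ N) (f : ℍ → ℂ) :
    repSum ℓ N f = ModularForm.heckeU 1 ℓ f := by
  let e : Fin ℓ ≃ HM.HeckeIdx ℓ N :=
    Equiv.ofBijective (fun j => ⟨some j, fun e => by cases e⟩)
      ⟨fun a b e => by simpa using e, fun ⟨i, hi⟩ => by
        rcases i with _ | j
        · exact absurd h (hi rfl)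
        · exact ⟨j, rfl⟩⟩
  rw [repSum, ← e.sum_comp, ModularForm.heckeU, Finset.sum_range]
  refine Finset.sum_congr rfl fun j _ => ?_
  change f ∣[(1 : ℤ)] HM.toReal (HM.stdGL ℓ N _) = _
  exact congrArg (fun M => f ∣[(1 : ℤ)] M) (Fermat.JAC.XH.toReal_stdGL_some N j _)

/-- The coefficients of the image. -/
theorem qCoeff_heckeOp_of (ℓ : ℕ) [hℓ : Fact ℓ.Prime] {ε : DirichletCharacter ℂ N}
    {f : CuspForm (Gamma1 N) 1} (hf : ∀ h : ¬ ℓ ∣ N,
      ⇑f ∣[(1 : ℤ)] heckeDelta ℓ N h = ε (ℓ : ZMod N) • ⇑f) (n : ℕ) :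
    qCoeff (heckeOp N ℓ f) n =
      qCoeff f (ℓ * n) + ε (ℓ : ZMod N) * (if ℓ ∣ n then qCoeff f (n / ℓ) else 0) := by
  have hℓp := hℓ.out
  have hfb := bddPer_Gamma1 f
  have hU : BddPer (ModularForm.heckeU 1 ℓ ⇑f) :=
    ⟨ModularForm.mdifferentiable_heckeU hfb.1 _ _,
      ModularForm.periodic_heckeU_comp_ofComplex hfb.2.1 _ _,
      ModularForm.isBoundedAtImInfty_heckeU hfb.2.2 _ _⟩
  -- at a bad prime the character vanishes and the operator is `U_ℓ`
  by_cases h : ℓ ∣ N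
  · have e0 : ε (ℓ : ZMod N) = 0 := MulChar.map_nonunit _ fun hu =>
      (hℓp.coprime_iff_not_dvd.mp ((ZMod.isUnit_iff_coprime ℓ N).mp hu)) h
    rw [e0, zero_mul, add_zero]
    change ModularFormClass.qCoeff (repSum ℓ N f) n = _
    rw [repSum_of_dvd h,
      UpperHalfPlane.qCoeff_heckeU (by exact_mod_cast hfb.2.1) hfb.1 hfb.2.2 1 hℓp.ne_zero n,
      ModularForm.coeffHeckeU_apply, mul_comm n ℓ]
  · set c := ε (ℓ : ZMod N)
    set D := ModularForm.heckeDiagMatrix ℓ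
    have hT : BddPer (ModularForm.heckeT 1 ℓ ⇑f) :=
      ⟨ModularForm.mdifferentiable_heckeT hfb.1 _ _,
        ModularForm.periodic_heckeT_comp_ofComplex hfb.2.1 _ _,
        ModularForm.isBoundedAtImInfty_heckeT hfb.2.2 _ _⟩
    have hconst : ∀ a : ℂ, BddPer fun _ : ℍ => a := BddPer.const
    -- otherwise it is `(1 - ε ℓ) U_ℓ + ε ℓ T_ℓ`
    have e1 : repSum ℓ N f = (fun _ : ℍ => (1 - c)) * ModularForm.heckeU 1 ℓ ⇑f +
          (fun _ : ℍ => c) * ModularForm.heckeT 1 ℓ ⇑f := by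
      rw [repSum, heckeSum_eq h, hf h, ModularForm.smul_slash, ModularForm.σ_heckeDiagMatrix,
        ContinuousAlgEquiv.refl_apply]
      funext z
      simp only [ModularForm.heckeT, Pi.add_apply, Pi.mul_apply, Pi.smul_apply, smul_eq_mul, c]
      ring
    change qCoeff (repSum ℓ N f) n = _
    rw [e1, ModularFormClass.qCoeff,
      qExpansion_add ((hconst _).mul hU).analyticAt ((hconst c).mul hT).analyticAt,
      qExpansion_mul (hconst _).analyticAt hU.analyticAt,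
      qExpansion_mul (hconst _).analyticAt hT.analyticAt, qExpansion_const, qExpansion_const,
      map_add, PowerSeries.coeff_C_mul, PowerSeries.coeff_C_mul]
    change (1 - c) * qCoeff _ n + c * qCoeff _ n = _
    rw [UpperHalfPlane.qCoeff_heckeU (by exact_mod_cast hfb.2.1) hfb.1 hfb.2.2 1 hℓp.ne_zero n,
      UpperHalfPlane.qCoeff_heckeT (by exact_mod_cast hfb.2.1) hfb.1 hfb.2.2 1 hℓp.ne_zero n,
      ModularForm.coeffHeckeU_apply, ModularForm.coeffHeckeT_apply, mul_comm n ℓ]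
    simp only [sub_self, zpow_zero, one_mul]
    ring

/-- The same on forms with a character. -/
theorem qCoeff_heckeOp (ℓ : ℕ) [Fact ℓ.Prime] {ε : DirichletCharacter ℂ N}
    {f : CuspForm (Gamma1 N) 1} (hf : f ∈ neb N ε) (n : ℕ) :
    qCoeff (heckeOp N ℓ f) n =
      qCoeff f (ℓ * n) + ε (ℓ : ZMod N) * (if ℓ ∣ n then qCoeff f (n / ℓ) else 0) :=
  qCoeff_heckeOp_of ℓ (fun h => by
    have e : (((heckeDelta ℓ N h) 1 1 : ℤ) : ZMod N) = (ℓ : ZMod N) := by simp [heckeDelta]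
    rw [hf _ (heckeDelta_mem h), e]) n

/-- At `ℓ = 1` modulo `N` no character is needed. -/
theorem qCoeff_heckeOp_one (ℓ : ℕ) [Fact ℓ.Prime] (f : CuspForm (Gamma1 N) 1)
    (h1 : (ℓ : ZMod N) = 1) (n : ℕ) :
    qCoeff (heckeOp N ℓ f) n = qCoeff f (ℓ * n) + (if ℓ ∣ n then qCoeff f (n / ℓ) else 0) := by
  have h := qCoeff_heckeOp_of (N := N) ℓ (f := f) (ε := (1 : DirichletCharacter ℂ N))
    (fun h => by
      rw [slash_eq_of_same_entry f (heckeDelta_mem h) (one_mem _) (by simp [heckeDelta, h1]),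
        SlashAction.slash_one, h1, map_one, one_smul]) n
  rw [h, h1, map_one, one_mul]

end Fermat.LTG.Ext

end
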