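import Fermat.Agent.RM.QEight
import Fermat.Agent.LTG.Targets

/-!
# The characteristic zero lift of the mod 3 matrices

Any multiplicative lift with coefficients in `ℤ[√-2]` has the determinant `±1` and, on the
quaternion subgroup, the trace of the lift; four elements of the quaternion subgroup make an
orthogonal basis of the complex matrices for the trace form.
-/

set_option autoImplicit false

noncomputable section

open Matrix FLT.ExplicitLift

namespace Fermat.LTG.Ext

open Fermat.RM (qX qY q8List)

local notation "M23" => Matrix (Fin 2) (Fin 2) (ZMod 3)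
local notation "GL23" => GL (Fin 2) (ZMod 3)
local notation "MC2" => Matrix (Fin 2) (Fin 2) ℂ

/-- The embedding `√-2 ↦ i√2`. -/
def i0 : ℤ√(-2) →+* ℂ :=
  Zsqrtd.lift ⟨(Real.sqrt 2 : ℂ) * Complex.I, by
    have h : ((Real.sqrt 2 : ℂ)) * (Real.sqrt 2 : ℂ) = 2 := by
      exact_mod_cast congrArg ((↑) : ℝ → ℂ) (Real.mul_self_sqrt (by norm_num : (0 : ℝ) ≤ 2))
    push_cast
    linear_combination (Complex.I * Complex.I) * h + 2 * Complex.I_mul_I⟩

/-- The embedding is injective. -/
theorem i0_injective : Function.Injective i0 :=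
  Zsqrtd.lift_injective _ fun n h => by nlinarith [mul_self_nonneg n]

/-- The units of `ℤ[√-2]` are `±1`. -/
theorem unit_eq_or (z : ℤ√(-2)) (h : IsUnit z) : z = 1 ∨ z = -1 := by
  have h1 : z.norm = 1 := (Zsqrtd.norm_eq_one_iff' (by norm_num) z).mpr h
  rw [Zsqrtd.norm_def] at h1
  have him : z.im = 0 := by nlinarith [mul_self_nonneg z.re, mul_self_nonneg z.im]
  rw [him] at h1
  rcases mul_self_eq_one_iff.mp (show z.re * z.re = 1 by linarith) with hr | hr
  · exact Or.inl (Zsqrtd.ext (by simpa using hr) (by simpa using him))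
  · exact Or.inr (Zsqrtd.ext (by simpa using hr) (by simpa using him))

/-- The lift in `GL₂(ℂ)`. -/
def liftC (Ψ : GL23 →* GL (Fin 2) (ℤ√(-2))) : GL23 →* GL (Fin 2) ℂ :=
  (GeneralLinearGroup.map i0).comp Ψ

variable {Ψ : GL23 →* GL (Fin 2) (ℤ√(-2))}

/-- The entries of the complex lift. -/
theorem val_liftC (g : GL23) :
    (liftC Ψ g : MC2) = (Ψ g : Matrix (Fin 2) (Fin 2) (ℤ√(-2))).map i0 := rfl

/-- The trace of the complex lift. -/
theorem trace_liftC (g : GL23) :
    (liftC Ψ g : MC2).trace = i0 (Ψ g : Matrix (Fin 2) (Fin 2) (ℤ√(-2))).trace := by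
  rw [val_liftC, trace_fin_two, trace_fin_two, map_add, map_apply, map_apply]

variable (hΨ : ∀ g, GeneralLinearGroup.map red (Ψ g) = g)
include hΨ

/-- The lift reduces to the matrix. -/
theorem red_apply (g : GL23) (i j : Fin 2) :
    red ((Ψ g : Matrix (Fin 2) (Fin 2) (ℤ√(-2))) i j) = (g : M23) i j :=
  congrFun (congrFun (congrArg (fun x : GL23 => (x : M23)) (hΨ g)) i) j

/-- A lift has determinant the sign of the determinant. -/
theorem det_psi (g : GL23) :
    (Ψ g : Matrix (Fin 2) (Fin 2) (ℤ√(-2))).det = if (g : M23).det = 1 then 1 else -1 := by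
  have h : red (Ψ g : Matrix (Fin 2) (Fin 2) (ℤ√(-2))).det = (g : M23).det := by
    rw [det_fin_two, det_fin_two, map_sub, map_mul, map_mul, red_apply hΨ, red_apply hΨ,
      red_apply hΨ, red_apply hΨ]
  rcases unit_eq_or _ ((isUnit_iff_isUnit_det _).mp (Units.isUnit (Ψ g))) with h1 | h1
  · rw [h1, map_one] at h
    rw [h1, if_pos h.symm]
  · rw [h1, map_neg, map_one] at h
    rw [h1, if_neg (by rw [← h]; decide)]

/-- The determinant of the complex lift. -/
theorem det_liftC (g : GL23) :
    (liftC Ψ g : MC2).det = if (g : M23).det = 1 then 1 else -1 := by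
  rw [val_liftC, ← RingHom.mapMatrix_apply, ← RingHom.map_det, det_psi hΨ]
  split_ifs <;> simp

/-- The lift sends `-1` to `-1`. -/
theorem liftC_neg_one {g : GL23} (hg : (g : M23) = -1) : (liftC Ψ g : MC2) = -1 := by
  -- the lift `A` squares to one
  have h2 : g * g = 1 := Units.ext (by rw [Units.val_mul, hg, neg_mul_neg, mul_one]; rfl)
  set A : MC2 := (liftC Ψ g : MC2) with hA
  have hAA : A * A = 1 := by rw [hA, ← Units.val_mul, ← map_mul, h2, map_one, Units.val_one]
  have e00 := congrFun (congrFun hAA 0) 0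
  have e01 := congrFun (congrFun hAA 0) 1
  have e10 := congrFun (congrFun hAA 1) 0
  have e11 := congrFun (congrFun hAA 1) 1
  simp only [mul_apply, Fin.sum_univ_two, one_apply_eq,
    one_apply_ne (show (0 : Fin 2) ≠ 1 by decide),
    one_apply_ne (show (1 : Fin 2) ≠ 0 by decide)] at e00 e01 e10 e11
  -- its trace is not zero, as it reduces to that of `-1`
  have ht : A 0 0 + A 1 1 ≠ 0 := by
    intro h0
    rw [← trace_fin_two, hA, trace_liftC, ← map_zero i0] at h0
    have h3 := congrArg red (i0_injective h0)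
    rw [map_zero, trace_fin_two, map_add, red_apply hΨ, red_apply hΨ, hg] at h3
    revert h3
    decide
  -- so `A` is diagonal, with entries `±1` which reduce to `-1`
  have h01 : A 0 1 = 0 := by
    have : A 0 1 * (A 0 0 + A 1 1) = 0 := by linear_combination e01
    exact (mul_eq_zero.mp this).resolve_right ht
  have h10 : A 1 0 = 0 := by
    have : A 1 0 * (A 0 0 + A 1 1) = 0 := by linear_combination e10
    exact (mul_eq_zero.mp this).resolve_right ht
  have key : ∀ i, A i i * A i i = 1 → A i i = -1 := fun i hi => by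
    rcases mul_self_eq_one_iff.mp hi with h4 | h4
    · rw [hA, val_liftC, map_apply, ← map_one i0] at h4
      have h5 := congrArg red (i0_injective h4)
      rw [map_one, red_apply hΨ, hg, Matrix.neg_apply, one_apply_eq] at h5
      exact absurd h5 (by decide)
    · exact h4
  have h00 : A 0 0 = -1 := key 0 (by rw [h01] at e00; simpa using e00)
  have h11 : A 1 1 = -1 := key 1 (by rw [h01] at e11; simpa using e11)
  rw [eta_fin_two A, h00, h01, h10, h11]
  ext i j
  fin_cases i <;> fin_cases j <;> simp

/-- On the quaternion subgroup the lift has the lifted trace. -/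
theorem trace_liftC_q8 {g : GL23} (hg : LT.InQ8 g) :
    (liftC Ψ g : MC2).trace = (LT.liftTr g : ℂ) := by
  have hd := hg.1
  -- the two scalar elements
  by_cases h1 : (g : M23) = 1
  · rw [LT.liftTr, if_pos h1, show g = 1 from Units.ext h1, map_one, Units.val_one, trace_one,
      Fintype.card_fin]
    norm_num
  by_cases h2 : (g : M23) = -1
  · rw [LT.liftTr, if_neg h1, if_pos h2, liftC_neg_one hΨ h2, trace_neg, trace_one,
      Fintype.card_fin]
    norm_num
  have h0 : (g : M23).trace = 0 := hg.2.resolve_right (not_or.mpr ⟨h1, h2⟩)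
  rw [LT.liftTr, if_neg h1, if_neg h2, if_neg (by rw [h0]; decide), if_neg (by rw [h0]; decide),
    Int.cast_zero]
  -- the other elements have trace zero, so square to `-1`
  have hsq : ((g * g : GL23) : M23) = -1 := by
    have key : ∀ a b c d : ZMod 3, a + d = 0 → a * d - b * c = 1 →
        (!![a, b; c, d] : M23) * !![a, b; c, d] = -1 := by decide +kernel
    rw [Units.val_mul, eta_fin_two (g : M23)]
    exact key _ _ _ _ ((trace_fin_two _).symm.trans h0) ((det_fin_two _).symm.trans hd)
  set A : MC2 := (liftC Ψ g : MC2) with hA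
  have hAA : A * A = -1 := by
    rw [hA, ← Units.val_mul, ← map_mul, liftC_neg_one hΨ hsq]
  -- the lift squares to `-1` with determinant one, so it has trace zero
  have hdA : A 0 0 * A 1 1 - A 0 1 * A 1 0 = 1 := by
    rw [← det_fin_two, hA, det_liftC hΨ, if_pos hd]
  have e00 := congrFun (congrFun hAA 0) 0
  have e01 := congrFun (congrFun hAA 0) 1
  simp only [mul_apply, Fin.sum_univ_two, Matrix.neg_apply, one_apply_eq,
    one_apply_ne (show (0 : Fin 2) ≠ 1 by decide)] at e00 e01
  rw [trace_fin_two]
  by_contra hne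
  have h01 : A 0 1 = 0 := by
    have : A 0 1 * (A 0 0 + A 1 1) = 0 := by linear_combination e01
    exact (mul_eq_zero.mp this).resolve_right hne
  have : A 0 0 * (A 0 0 + A 1 1) = 0 := by linear_combination e00 + hdA
  rcases mul_eq_zero.mp this with h00 | h00
  · rw [h00, h01] at hdA
    simp at hdA
  · exact hne h00

omit hΨ

/-- The trace of the lift on matrices. -/
def tr8 (a : M23) : ℤ :=
  if a = 1 then 2 else if a = -1 then -2 else if a.trace = 1 then 1 else if a.trace = 2 then -1
  else 0

/-- The trace of the lift is `tr8`. -/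
theorem liftTr_eq (g : GL23) : LT.liftTr g = tr8 g := rfl

/-- The four matrices `1`, `qX`, `qY`, `qX qY`. -/
def q4 : Fin 4 → M23 := ![1, qX, qY, qX * qY]

/-- The values of the trace form. -/
def dQ : Fin 4 → ℤ := ![2, -2, -2, -2]

/-- The basis is orthogonal for the trace form. -/
theorem tr8_gram : ∀ i j, q4 i * q4 j ∈ q8List ∧ tr8 (q4 i * q4 j) = if i = j then dQ i else 0 := by
  decide +kernel

/-- The values of the trace form on the basis are not zero. -/
theorem dQ_ne_zero : ∀ i, dQ i ≠ 0 := by decide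

/-- Elements of `SL₂` are in `Q₈` up to a power of the unipotent element. -/
theorem exists_pow_mem_q8 (g : M23) (h : g.det = 1) :
    ∃ k : ℕ, g * (!![1, 1; 0, 1] : M23) ^ k ∈ q8List := by
  have key : ∀ a b c d : ZMod 3, a * d - b * c = 1 →
      ∃ k : Fin 3, (!![a, b; c, d] : M23) * (!![1, 1; 0, 1] : M23) ^ (k : ℕ) ∈ q8List := by
    decide +kernel
  obtain ⟨k, hk⟩ := key _ _ _ _ ((det_fin_two g).symm.trans h)
  exact ⟨k, by rw [eta_fin_two g]; exact hk⟩

/-- The standard unipotent is a commutator. -/
theorem exists_commutator_uni :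
    ∃ a b : GL23, ((a * b * a⁻¹ * b⁻¹ : GL23) : M23) = !![1, 1; 0, 1] :=
  ⟨⟨!![2, 0; 0, 1], !![2, 0; 0, 1], by decide +kernel, by decide +kernel⟩,
    ⟨!![1, 1; 0, 1], !![1, 2; 0, 1], by decide +kernel, by decide +kernel⟩, by decide +kernel⟩

end Fermat.LTG.Ext

end
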