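import Fermat.Agent.LTG.Ext.Eigen
import Mathlib.Analysis.Fourier.ZMod

/-!
# Multiplying the coefficients by a periodic function

A combination of the translates `f (τ + x / m)` is a form for `Γ₁(N m²)` whose coefficients are
`F (n) a (n)`, for any function `F` on `ℤ / m`.
-/

set_option autoImplicit false

noncomputable section

open Function UpperHalfPlane CongruenceSubgroup ModularFormClass Matrix
open scoped MatrixGroups ModularForm Manifold

namespace Fermat.LTG.Ext

open Fermat.DS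
open Fermat.HM (gq toReal)

variable {N : ℕ} [NeZero N] (m : ℕ) [NeZero m]

/-- The translation by `q`. -/
def shiftMat (q : ℚ) : GL (Fin 2) ℚ :=
  ⟨!![1, q; 0, 1], !![1, -q; 0, 1],
    by ext i j; fin_cases i <;> fin_cases j <;> simp [Matrix.mul_apply, Fin.sum_univ_two],
    by ext i j; fin_cases i <;> fin_cases j <;> simp [Matrix.mul_apply, Fin.sum_univ_two]⟩

/-- A translation has determinant one. -/
theorem det_shiftMat (q : ℚ) : (shiftMat q : Matrix (Fin 2) (Fin 2) ℚ).det = 1 := by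
  simp [shiftMat, Matrix.det_fin_two]

/-- A real translation has determinant one. -/
theorem det_toReal_shiftMat (q : ℚ) :
    (toReal (shiftMat q) : Matrix (Fin 2) (Fin 2) ℝ).det = 1 := by
  rw [Matrix.det_fin_two, HM.toReal_apply, HM.toReal_apply, HM.toReal_apply, HM.toReal_apply]
  simp [shiftMat]

/-- Slashing by a translation is translating. -/
theorem slash_shiftMat (f : ℍ → ℂ) (q : ℚ) (τ : ℍ) :
    (f ∣[(1 : ℤ)] toReal (shiftMat q)) τ = f (toReal (shiftMat q) • τ) := by
  rw [ModularForm.slash_apply, sigma_toReal (by rw [det_shiftMat]; norm_num)]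
  simp [Matrix.GeneralLinearGroup.val_det_apply, UpperHalfPlane.denom,
    HM.toReal_apply, shiftMat]

/-- A translation adds `q`. -/
theorem coe_shiftMat_smul (q : ℚ) (τ : ℍ) :
    ((toReal (shiftMat q) • τ : ℍ) : ℂ) = (τ : ℂ) + (q : ℂ) := by
  rw [coe_smul_of_det_pos (by
    rw [Matrix.GeneralLinearGroup.val_det_apply, det_toReal_shiftMat]; norm_num)]
  simp [UpperHalfPlane.num, UpperHalfPlane.denom, HM.toReal_apply, shiftMat]

omit [NeZero N] in
/-- A rational translate of a form is invariant under `Γ₁(N m²)`. -/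
theorem shift_invariant (f : CuspForm (Gamma1 N) 1) (x : ℕ) {γ : SL(2, ℤ)}
    (hγ : γ ∈ Gamma1 (N * m ^ 2)) :
    (⇑f ∣[(1 : ℤ)] toReal (shiftMat ((x : ℚ) / m))) ∣[(1 : ℤ)] (γ : GL (Fin 2) ℝ) =
      ⇑f ∣[(1 : ℤ)] toReal (shiftMat ((x : ℚ) / m)) := by
  obtain ⟨h00, h11, h10⟩ := (Gamma1_mem _ γ).mp hγ
  rw [ZMod.intCast_zmod_eq_zero_iff_dvd] at h10
  obtain ⟨a', ha⟩ := (ZMod.intCast_eq_intCast_iff_dvd_sub 1 (γ 0 0) _).mp
    (by rw [h00, Int.cast_one])
  obtain ⟨d', hd⟩ := (ZMod.intCast_eq_intCast_iff_dvd_sub 1 (γ 1 1) _).mp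
    (by rw [h11, Int.cast_one])
  obtain ⟨c', hc⟩ := h10
  push_cast at ha hd hc
  have hdet : γ 0 0 * γ 1 1 - γ 0 1 * γ 1 0 = 1 := by
    rw [← Matrix.det_fin_two]; exact γ.det_coe
  set M : ℤ := (m : ℤ) with hM
  set X : ℤ := (x : ℤ) with hX
  -- the conjugate `γ'` of `γ` by the translation
  let A : ℤ := γ 0 0 + X * N * M * c'
  let B : ℤ := γ 0 1 + X * (N * M * (d' - a')) - X ^ 2 * N * c'
  let D : ℤ := γ 1 1 - X * N * M * c'
  let γ' : SL(2, ℤ) := ⟨!![A, B; γ 1 0, D], by
    rw [Matrix.det_fin_two_of]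
    simp only [A, B, D]
    linear_combination hdet + (X * N * M * c') * (hd - ha) +
      (-(X * (N * M * (d' - a'))) + X ^ 2 * N * c') * hc⟩
  have hγ' : γ' ∈ Gamma1 N := by
    refine (Gamma1_mem _ _).mpr ⟨?_, ?_, ?_⟩
    · change ((A : ℤ) : ZMod N) = 1
      rw [show A = 1 + (N : ℤ) * (M ^ 2 * a' + X * M * c') by simp only [A]; linear_combination ha]
      simp
    · change ((D : ℤ) : ZMod N) = 1
      rw [show D = 1 + (N : ℤ) * (M ^ 2 * d' - X * M * c') by simp only [D]; linear_combination hd]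
      simp
    · change (((γ 1 0 : ℤ)) : ZMod N) = 0
      rw [hc]; simp
  have hm : (m : ℚ) ≠ 0 := Nat.cast_ne_zero.mpr (NeZero.ne m)
  have haq := congrArg (fun z : ℤ => (z : ℚ)) ha
  have hdq := congrArg (fun z : ℤ => (z : ℚ)) hd
  have hcq := congrArg (fun z : ℤ => (z : ℚ)) hc
  simp only [hM, Int.cast_sub, Int.cast_mul, Int.cast_pow, Int.cast_natCast, Int.cast_one]
    at haq hdq hcq
  -- the translation intertwines `γ` and `γ'`
  have key : shiftMat ((x : ℚ) / m) * gq γ = gq γ' * shiftMat ((x : ℚ) / m) := by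
    refine Units.ext (Matrix.ext fun i j => ?_)
    have e : (gq γ' : Matrix (Fin 2) (Fin 2) ℚ) = !![(A : ℚ), (B : ℚ); (γ 1 0 : ℚ), (D : ℚ)] := by
      rw [HM.coe_gq]
      ext k l
      fin_cases k <;> fin_cases l <;> rfl
    rw [Units.val_mul, Units.val_mul, e]
    fin_cases i <;> fin_cases j <;>
      simp [shiftMat, HM.coe_gq, Matrix.mul_apply, Fin.sum_univ_two, A, B, D, hM, hX] <;>
      field_simp
    · linear_combination (x : ℚ) * hcq
    · linear_combination (x : ℚ) * (hdq - haq)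
    · linear_combination -(x : ℚ) * hcq
  rw [← SlashAction.slash_mul, ← HM.toReal_gq γ, ← map_mul, key, map_mul, SlashAction.slash_mul,
    HM.toReal_gq, ← ModularForm.SL_slash, HM.slash_of_mem f hγ']

/-- The translate of a form by `x / m`, at level `N m²`. -/
def shiftForm (f : CuspForm (Gamma1 N) 1) (x : ℕ) : CuspForm (Gamma1 (N * m ^ 2)) 1 where
  toFun := ⇑f ∣[(1 : ℤ)] toReal (shiftMat ((x : ℚ) / m))
  slash_action_eq' := by
    rintro _ ⟨γ, hγ, rfl⟩
    exact shift_invariant m f x hγ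
  holo' := MDifferentiable.slash (CuspFormClass.holo f) _ _
  zero_at_cusps' := fun {c} hc =>
    OnePoint.IsZeroAt.smul_iff.mp (CuspFormClass.zero_at_cusps f
      (HM.isCusp_toReal_smul (Γ' := Gamma1 (N * m ^ 2)) hc _))

/-- A translation multiplies the parameter by a root of unity. -/
theorem qParam_shift (x : ℕ) (τ : ℍ) :
    Periodic.qParam 1 ((toReal (shiftMat ((x : ℚ) / m)) • τ : ℍ) : ℂ) =
      Periodic.qParam 1 (τ : ℂ) * ZMod.stdAddChar ((x : ℤ) : ZMod m) := by
  rw [coe_shiftMat_smul, ZMod.stdAddChar_coe, Periodic.qParam, Periodic.qParam, ← Complex.exp_add]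
  congr 1
  push_cast
  ring

/-- Translation multiplies the coefficients by a character. -/
theorem qCoeff_shiftForm (f : CuspForm (Gamma1 N) 1) (x n : ℕ) :
    qCoeff (shiftForm m f x) n = qCoeff f n * ZMod.stdAddChar ((x : ZMod m) * (n : ZMod m)) := by
  have hf := bddPer_Gamma1 f
  symm
  refine UpperHalfPlane.qExpansion_coeff_unique _
    (c := fun k => qCoeff f k * ZMod.stdAddChar ((x : ZMod m) * (k : ZMod m))) one_pos
    (bddPer_Gamma1 (shiftForm m f x)).analyticAt (fun τ => ?_) n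
  have h : HasSum (fun k => qCoeff f k •
      Periodic.qParam 1 ((toReal (shiftMat ((x : ℚ) / m)) • τ : ℍ) : ℂ) ^ k)
      (f (toReal (shiftMat ((x : ℚ) / m)) • τ)) :=
    hasSum_qExpansion one_pos (by exact_mod_cast hf.2.1) hf.1 hf.2.2 _
  rw [← slash_shiftMat (⇑f) ((x : ℚ) / m) τ] at h
  convert h using 1
  · funext k
    rw [qParam_shift, mul_pow, ← AddChar.map_nsmul_eq_pow, nsmul_eq_mul, Int.cast_natCast,
      mul_comm (k : ZMod m), smul_eq_mul, smul_eq_mul]
    ring
  · rfl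

/-- The form with coefficients `F (n) a (n)`. -/
def twistForm (F : ZMod m → ℂ) (f : CuspForm (Gamma1 N) 1) :
    CuspForm (Gamma1 (N * m ^ 2)) 1 :=
  ∑ j : ZMod m, ((m : ℂ)⁻¹ * ZMod.dft F j) • shiftForm m f j.val

/-- The twisted form has the coefficients multiplied by the periodic function. -/
theorem qCoeff_twistForm (F : ZMod m → ℂ) (f : CuspForm (Gamma1 N) 1) (n : ℕ) :
    qCoeff (twistForm m F f) n = F (n : ZMod m) * qCoeff f n := by
  have h := congrFun ((ZMod.dft (N := m) (E := ℂ)).symm_apply_apply F) (n : ZMod m)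
  rw [ZMod.invDFT_apply] at h
  rw [← coeffF_apply, twistForm, map_sum, ← h, Finset.smul_sum, Finset.sum_mul]
  refine Finset.sum_congr rfl fun j _ => ?_
  rw [map_smul, coeffF_apply, qCoeff_shiftForm, ZMod.natCast_zmod_val]
  simp only [smul_eq_mul]
  ring

end Fermat.LTG.Ext

end
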