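import Fermat.Agent.LTG.Ext.Compare
import Fermat.Agent.LTG.Ext.Twist

/-!
# The eigensystem of the lift

The twisted form has as coefficients at the primes the traces of the lift and the character of
`ℚ(√-3)`; so all of its coefficients are in `ℤ[√-2]`.

`extraction` turns a weight one form for `ρ` into the eigensystem asked by S47, through `DS` and
`Compare`.
-/

set_option autoImplicit false

noncomputable section

open Matrix ModularFormClass EisensteinWeightOne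
open scoped MatrixGroups

namespace Fermat.LTG.Ext

open Fermat.GR.RT

local notation "ℚbar" => AlgebraicClosure ℚ
local notation "Γℚ" => (AlgebraicClosure ℚ ≃ₐ[ℚ] AlgebraicClosure ℚ)
local notation "GL23" => GL (Fin 2) (ZMod 3)

/-- The determinant at a Frobenius at `p` is `p` modulo `3`. -/
theorem det_frobenius {ρ : Γℚ →* GL23} (hρ : GenRho ρ) {p : ℕ} (hp : p.Prime) (h3 : ¬ p ∣ 3)
    {A : ValuationSubring ℚbar} (hA : A.LiesOverPrime p) {σ : Γℚ} (hσ : A.IsFrobeniusAt σ p) :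
    (ρ σ : Matrix (Fin 2) (Fin 2) (ZMod 3)).det = (p : ZMod 3) := by
  obtain ⟨z, hz⟩ := exists_primitive_level 3
  have h1 := modularCyclotomicCharacter.spec ℚbar (IsAlgClosed.card_rootsOfUnity_eq ℚbar 3)
    (σ : ℚbar ≃+* ℚbar) (t := hz.toRootsOfUnity.1) hz.toRootsOfUnity.2
  have h2 := cycK_eq_of_apply (K := 3) hz (σ := σ) h1
  rw [cycK_frobenius hp (hp.coprime_iff_not_dvd.mpr h3) hA hσ, ZMod.coe_unitOfCoprime,
    ZMod.natCast_zmod_val] at h2
  have h4 := congrArg (fun u : (ZMod 3)ˣ => (u : ZMod 3)) (hρ.det σ)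
  simp only [GeneralLinearGroup.val_det_apply,
    WeierstrassCurve.modThreeCyclotomicChar_apply] at h4
  rw [h4, h2]

/-- The character of `ℚ(√-3)` is the sign of the class modulo `3`. -/
theorem chiNegThree_eq {p : ℕ} (h3 : ¬ 3 ∣ p) :
    (if (p : ZMod 3) = 1 then (1 : ℂ) else -1) = ((chiNegThree p : ℤ) : ℂ) := by
  have h : ((p : ZMod 3) = 1) ↔ p % 3 = 1 := by
    rw [← Nat.cast_one, ZMod.natCast_eq_natCast_iff']
  by_cases h1 : p % 3 = 1
  · rw [if_pos (h.mpr h1), chiNegThree, if_pos h1, Int.cast_one]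
  · have h2 : p % 3 = 2 := by omega
    rw [if_neg (mt h.mp h1), chiNegThree, if_neg h1, if_pos h2, Int.cast_neg, Int.cast_one]

/-- If the values at the primes and the factors of the recursion lie in the range of `i0`, so do
all values. -/
theorem mem_range_of_recursion {e c : ℕ → ℂ} (h0 : c 0 = 0) (h1 : c 1 = 1)
    (hrec : ∀ ℓ : ℕ, ℓ.Prime → ∀ n : ℕ,
      c (ℓ * n) + e ℓ * (if ℓ ∣ n then c (n / ℓ) else 0) = c ℓ * c n)
    (he : ∀ ℓ : ℕ, ℓ.Prime → e ℓ ∈ i0.range) (hc : ∀ ℓ : ℕ, ℓ.Prime → c ℓ ∈ i0.range) (n : ℕ) :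
    c n ∈ i0.range := by
  induction n using Nat.strong_induction_on with
  | _ n ih =>
    rcases Nat.lt_or_ge n 2 with hn | hn
    · interval_cases n
      · rw [h0]; exact zero_mem _
      · rw [h1]; exact one_mem _
    · have hp : (Nat.minFac n).Prime := Nat.minFac_prime (by omega)
      obtain ⟨m, hm⟩ := Nat.minFac_dvd n
      have hm0 : 0 < m := Nat.pos_of_ne_zero (by rintro rfl; omega)
      have hmn : m < n := by rw [hm]; exact lt_mul_of_one_lt_left hm0 hp.one_lt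
      rw [hm, eq_sub_of_add_eq (hrec _ hp m)]
      refine sub_mem (mul_mem (hc _ hp) (ih m hmn)) (mul_mem (he _ hp) ?_)
      split_ifs with hd
      · exact ih _ ((Nat.div_le_self _ _).trans_lt hmn)
      · exact zero_mem _

/-- **Extraction.** `ExtractionStatement` holds: a weight one form for `ρ` gives the eigensystem of
the lift. -/
theorem extraction : ExtractionStatement := by
  classical
  intro ρ Ψ hρ hΨ hf
  obtain ⟨N, hN, ε, g, hg, hgood⟩ := exists_eigen hf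
  have := hN
  obtain ⟨ψ, hψ⟩ := exists_twist_data ρ hρ Ψ hΨ hg hgood
  have : NeZero (3 * N) := ⟨mul_ne_zero (by norm_num) (NeZero.ne N)⟩
  set M := N * (3 * N) ^ 2 with hM
  set f := twistForm (3 * N) (fun z => ψ z) g with hfdef
  set c : ℕ → ℂ := fun n => qCoeff f n with hcdef
  have hcn : ∀ n, c n = ψ (n : ZMod (3 * N)) * qCoeff g n := fun n =>
    qCoeff_twistForm (3 * N) (fun z => ψ z) g n
  set e : ℕ → ℂ := fun ℓ => if ℓ ∣ M then 0 else ((chiNegThree ℓ : ℤ) : ℂ) with hedef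
  have hdvd : ∀ ℓ : ℕ, ℓ.Prime → (ℓ ∣ M ↔ ℓ ∣ 3 * N) := fun ℓ hℓ => by
    refine ⟨fun h => ?_, fun h => dvd_mul_of_dvd_right (dvd_pow h two_ne_zero) _⟩
    rcases (Nat.Prime.dvd_mul hℓ).mp h with h | h
    · exact h.mul_left 3
    · exact hℓ.dvd_of_dvd_pow h
  have hψ0 : ∀ ℓ : ℕ, ℓ.Prime → ℓ ∣ 3 * N → ψ (ℓ : ZMod (3 * N)) = 0 := fun ℓ hℓ h =>
    MulChar.map_nonunit _ fun hu =>
      (hℓ.coprime_iff_not_dvd.mp ((ZMod.isUnit_iff_coprime ℓ (3 * N)).mp hu)) h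
  have hfrob : ∀ ℓ : ℕ, ℓ.Prime → ¬ ℓ ∣ 3 * N → ∃ A : ValuationSubring ℚbar, ∃ σ : Γℚ,
      A.LiesOverPrime ℓ ∧ A.IsFrobeniusAt σ ℓ := fun ℓ hℓ _ => by
    obtain ⟨A, hA⟩ := Fermat.CFT.exists_place hℓ
    obtain ⟨σ, hσ⟩ := Fermat.CFT.exists_isFrobeniusAt hℓ hA
    exact ⟨A, σ, hA, hσ⟩
  have heq : ∀ ℓ : ℕ, ℓ.Prime → ¬ ℓ ∣ 3 * N →
      ψ (ℓ : ZMod (3 * N)) ^ 2 * ε (ℓ : ZMod N) = ((chiNegThree ℓ : ℤ) : ℂ) := fun ℓ hℓ h => by
    obtain ⟨A, σ, hA, hσ⟩ := hfrob ℓ hℓ h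
    have h3 : ℓ ≠ 3 := by rintro rfl; exact h (dvd_mul_right 3 N)
    have h3' : ¬ ℓ ∣ 3 := fun hd => h3 ((Nat.prime_dvd_prime_iff_eq hℓ Nat.prime_three).mp hd)
    rw [(hψ ℓ hℓ h A hA σ hσ).2, det_frobenius hρ hℓ h3' hA hσ, chiNegThree_eq fun hd =>
      h3 ((Nat.prime_dvd_prime_iff_eq Nat.prime_three hℓ).mp hd).symm]
  -- the recursion of the twisted coefficients
  have hrec : ∀ ℓ : ℕ, ℓ.Prime → ∀ n : ℕ,
      c (ℓ * n) + e ℓ * (if ℓ ∣ n then c (n / ℓ) else 0) = c ℓ * c n := fun ℓ hℓ n => by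
    rw [hcn, hcn ℓ, hcn n, Nat.cast_mul, map_mul, hedef]
    by_cases h : ℓ ∣ 3 * N
    · simp [hψ0 ℓ hℓ h, (hdvd ℓ hℓ).mpr h]
    · have hN' : ¬ ℓ ∣ N := fun hd => h (hd.mul_left 3)
      have hh := hg.hecke ℓ hℓ hN' n
      simp only [if_neg (mt (hdvd ℓ hℓ).mp h)]
      rw [← heq ℓ hℓ h]
      by_cases hd : ℓ ∣ n
      · rw [if_pos hd] at hh ⊢
        obtain ⟨k, rfl⟩ := hd
        rw [Nat.mul_div_cancel_left k hℓ.pos] at hh ⊢
        rw [hcn k, Nat.cast_mul, map_mul]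
        linear_combination (ψ (ℓ : ZMod (3 * N)) ^ 2 * ψ (k : ZMod (3 * N))) * hh
      · rw [if_neg hd] at hh ⊢
        linear_combination (ψ (ℓ : ZMod (3 * N)) * ψ (n : ZMod (3 * N))) * hh
  have h1 : c 1 = 1 := by rw [hcn, Nat.cast_one, map_one, hg.one, one_mul]
  -- so all coefficients lie in `ℤ[√-2]`
  have hc : ∀ ℓ : ℕ, ℓ.Prime → c ℓ ∈ i0.range := fun ℓ hℓ => by
    by_cases h : ℓ ∣ 3 * N
    · rw [hcn, hψ0 ℓ hℓ h, zero_mul]; exact zero_mem _
    · obtain ⟨A, σ, hA, hσ⟩ := hfrob ℓ hℓ h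
      rw [hcn, (hψ ℓ hℓ h A hA σ hσ).1, trace_liftC]
      exact RingHom.mem_range.mpr ⟨_, rfl⟩
  have he : ∀ ℓ : ℕ, ℓ.Prime → e ℓ ∈ i0.range := fun ℓ _ => by
    simp only [hedef]
    split_ifs
    · exact zero_mem _
    · exact intCast_mem _ _
  have hall : ∀ n, c n ∈ i0.range := mem_range_of_recursion (qCoeff_zero_form f) h1 hrec he hc
  choose b hb using fun n => RingHom.mem_range.mp (hall n)
  refine ⟨M, inferInstance, b, ⟨i0_injective (by rw [hb, h1, map_one]), fun ℓ hℓ n =>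
    i0_injective ?_⟩, ⟨i0, f, fun n => (hb n).symm⟩, fun p hp hpM A hA σ hσ => i0_injective ?_⟩
  · rw [map_add, map_mul, map_mul, hb, hb, hb, ← hrec ℓ hℓ n, hedef]
    congr 2
    · simp only
      split_ifs <;> simp
    · split_ifs <;> simp [hb]
  · have hpN : ¬ p ∣ 3 * N := fun h => hpM (dvd_mul_of_dvd_right ((hdvd p hp).mpr h) 3)
    rw [hb, hcn, (hψ p hp hpN A hA σ hσ).1, trace_liftC]

end Fermat.LTG.Ext

end
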